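import Mathlib
import Fermat.Agent.MUL.Lib.BadRed.Graph.Seed
import Fermat.Agent.MUL.R38.G.Main

section MergeWrap_Lib_BadRed_Graph_Lift -- from Lib/BadRed/Graph/Lift.lean

set_option autoImplicit false

/-!
# Cluster G, abstract graph package: the lifting property (LIFT), interface

* `GraphSeed.HasLift` : for `m ≥ m₀` every tuple of `graphRR (m R)` is the reduction of a function
  of `L(m D₀) ∩ ⋂_c O_c`  (proved in `S1.lean` from (PL) and the dimension of `graphRR`);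
* `GraphSetup.HasLift D₀ R` : the same for a `GraphSetup` (hypothesis of the KEY and of the gluing
  statements, as in cluster T);
* `GraphCore.IsSmoothPt c Q` : the point `Q` of the component `c` is not a branch of a node.
-/

noncomputable section

open AlgebraicCurve Fermat.Agent.RR Fermat.Agent.Deuring

namespace Fermat.Agent.BadRedG

open Fermat.Agent.BadRed

variable {K F k : Type*} [Field K] [Field F] [Algebra K F] [Field k]
  {κ : Type*} {Fk : κ → Type*} [∀ c, Field (Fk c)] [∀ c, Algebra k (Fk c)] {ι : Type*}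

/-- the point `Q` of the component `c` is not a branch of a node. -/
def GraphCore.IsSmoothPt (C : GraphCore K F k κ Fk ι) (c : κ) (Q : Place k (Fk c)) : Prop :=
  (∀ i, (⟨c, Q⟩ : Σ c, Place k (Fk c)) ≠ ⟨C.src i, C.s₁ i⟩) ∧
    ∀ i, (⟨c, Q⟩ : Σ c, Place k (Fk c)) ≠ ⟨C.tgt i, C.s₂ i⟩

/-- **(LIFT)** for a seed. -/
def GraphSeed.HasLift [Fintype κ] [Fintype ι] (G : GraphSeed K F k κ Fk ι) : Prop :=
  ∃ m₀ : ℕ, ∀ m : ℕ, m₀ ≤ m → ∀ y : ∀ c, Fk c,
    y ∈ graphRR G.src G.tgt G.s₁ G.s₂ (fun c => m • G.R c) →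
      ∃ f : F, G.toGraphCore.IsInt (m • G.D₀) f ∧ G.toGraphCore.redAll f = y

/-- **(LIFT)** for a graph package and divisors `D₀`, `R c`. -/
def GraphSetup.HasLift (N : GraphSetup K F k κ Fk ι) (D₀ : Divisor K F)
    (R : ∀ c, Divisor k (Fk c)) : Prop :=
  ∃ m₀ : ℕ, ∀ m : ℕ, m₀ ≤ m → ∀ y : ∀ c, Fk c,
    y ∈ graphRR N.src N.tgt N.s₁ N.s₂ (fun c => m • R c) →
      ∃ f : F, f ∈ riemannRochSpace (m • D₀) ∧ (∀ c, f ∈ (N.S c).Ov) ∧
        ∀ c, (N.S c).red f = y c

end Fermat.Agent.BadRedG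
end
end MergeWrap_Lib_BadRed_Graph_Lift
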