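import Mathlib
import Fermat.Agent.MUL.Lib.BadRed.Graph.Seed
import Fermat.Agent.MUL.Lib.BadRed.Nodal.RedSpace2
import Fermat.Agent.MUL.Lib.Deuring.Construct

section MergeWrap_Lib_BadRed_Graph_RedSpaceG -- from Lib/BadRed/Graph/RedSpaceG.lean

set_option autoImplicit false
set_option linter.unusedSectionVars false
set_option linter.style.haveILetI false

/-!
# Cluster G, graph Deuring, DEU-0: the JOINT LATTICE property of a finite family of constant
reductions  (helper18)

`F / K` with constant reductions `S c : ValSetup K F k (Fk c)` (`c : κ`, `κ` finite, nonempty) over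
the same valuation ring `A` of `K`, each with the lattice property.  For a finite-dimensional
`K`-subspace `W` of `F` the `A`-module `W ∩ ⋂_c O_c` is free on a `K`-basis `u` of `W`, and the
tuples `(red_c u_i)_c` are `k`-linearly independent.  (For two valuations this is helper5's
simultaneous orthogonal basis; three lattices have no common orthogonal basis in general, so the
proof is different: Hahn-Banach for the maximum of the norms.)

* `fam_exists_normalise`  : `x ≠ 0` is a constant times an element of `⋂ O_c` which is a unit of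
                            one `O_c`;
* `fam_exists_split`      : a vector `e ∈ W ∩ ⋂ O_c` and a functional `φ` with `φ e = 1` which is
                            integral on `W ∩ O_{c₁}`;
* `fam_exists_basis`      : the orthonormal basis of `W` for the family;
* `fam_linearIndependent_red` : its joint reductions are linearly independent;
* `GraphCore.mem_V_iff`, `GraphCore.finrank_V` (**(PL)**: `dim_k V(D) = ℓ(D)`),
  `GraphCore.finite_V`, `GraphCore.V_mono`, `GraphCore.mul_mem_V`, `GraphCore.redAll_*`,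
  `GraphCore.exists_smul_redAll_ne_zero`.
-/

noncomputable section

open AlgebraicCurve Fermat.Agent.RR Fermat.Agent.Deuring Fermat.Agent.GaussInt

namespace Fermat.Agent.BadRedG

open Fermat.Agent.BadRed

section Family

variable {K F k : Type*} [Field K] [Field F] [Algebra K F] [Field k]
  {κ : Type*} {Fk : κ → Type*} [∀ c, Field (Fk c)] [∀ c, Algebra k (Fk c)]
  (S : ∀ c : κ, ValSetup K F k (Fk c))

/-- `x ≠ 0` is a constant times an element of `⋂_c O_c` which is a unit of one of the `O_c`. -/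
theorem fam_exists_normalise [Finite κ] [Nonempty κ] (hA : ∀ c c' : κ, (S c).A = (S c').A)
    {x : F} (hx : x ≠ 0) :
    ∃ d : K, d ≠ 0 ∧ (∀ c, d⁻¹ • x ∈ (S c).Ov) ∧ ∃ c₁, (d⁻¹ • x)⁻¹ ∈ (S c₁).Ov := by
  classical
  cases nonempty_fintype κ
  choose d hd0 hd1 hd2 using fun c => (S c).scale x hx
  obtain ⟨c₀⟩ := ‹Nonempty κ›
  obtain ⟨c₁, -, hmax⟩ := exists_max_entry (S c₀).A Finset.univ ⟨c₀, Finset.mem_univ _⟩ d
  have hmax' : ∀ c, d c / d c₁ ∈ (S c₀).A := fun c => by
    rcases hmax c (Finset.mem_univ _) with h | h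
    · exact absurd h.1 (hd0 c₁)
    · exact h.2
  have key : ∀ t : K, t⁻¹ • x = x * (algebraMap K F t)⁻¹ := fun t => by
    rw [Algebra.smul_def, map_inv₀, mul_comm]
  refine ⟨d c₁, hd0 c₁, fun c => ?_, c₁, ?_⟩
  · have hdc : algebraMap K F (d c) ≠ 0 := by simpa using hd0 c
    have hdc₁ : algebraMap K F (d c₁) ≠ 0 := by simpa using hd0 c₁
    have e : (d c₁)⁻¹ • x = algebraMap K F (d c / d c₁) * (x * (algebraMap K F (d c))⁻¹) := by
      rw [key, map_div₀]
      field_simp
    rw [e]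
    exact mul_mem ((S c).algebraMap_mem (hA c₀ c ▸ hmax' c)) (hd1 c)
  · rw [key]
    exact hd2 c₁

/-- **Hahn-Banach for the maximum norm**: a vector `e ∈ W ∩ ⋂ O_c` and a functional `φ` on `W`
with `φ e = 1` which takes integral values on `W ∩ O_{c₁}` (hence on `W ∩ ⋂ O_c`). -/
theorem fam_exists_split [Finite κ] [Nonempty κ] (hA : ∀ c c' : κ, (S c).A = (S c').A)
    (hL : ∀ c, HasLattice (S c)) (W : Submodule K F) [FiniteDimensional K W] (hW : W ≠ ⊥) :
    ∃ (e : F) (φ : W →ₗ[K] K), e ∈ W ∧ e ≠ 0 ∧ (∀ he : e ∈ W, φ ⟨e, he⟩ = 1) ∧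
      (∀ c, e ∈ (S c).Ov) ∧ ∃ c₁, ∀ w : W, (w : F) ∈ (S c₁).Ov → φ w ∈ (S c₁).A := by
  classical
  obtain ⟨x, hxW, hx0⟩ := Submodule.exists_mem_ne_zero_of_ne_bot hW
  obtain ⟨d, hd0, hint, c₁, hunit⟩ := fam_exists_normalise S hA hx0
  set e : F := d⁻¹ • x with he
  have heW : e ∈ W := W.smul_mem _ hxW
  have he0 : e ≠ 0 := smul_ne_zero (inv_ne_zero hd0) hx0
  -- an orthonormal basis of `W` for `O_{c₁}`
  obtain ⟨n, w, hwW, hwO, hwli, hwspan, hworth⟩ :=
    orthLattice_of_hasLattice (S c₁) (hL c₁) W inferInstance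
  set w' : Fin n → W := fun i => ⟨w i, hwW i⟩ with hw'
  have hw'li : LinearIndependent K w' := by
    apply LinearIndependent.of_comp W.subtype
    exact hwli
  have hw'span : ⊤ ≤ Submodule.span K (Set.range w') := by
    intro y _
    have hy : (y : F) ∈ Submodule.span K (Set.range w) := by rw [hwspan]; exact y.2
    have h2 : Submodule.span K (Set.range w) = (Submodule.span K (Set.range w')).map W.subtype := by
      rw [Submodule.map_span, ← Set.range_comp]
      rfl
    rw [h2] at hy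
    obtain ⟨y', hy', hyy'⟩ := hy
    have : y' = y := Subtype.ext hyy'
    rw [← this]
    exact hy'
  set B : Module.Basis (Fin n) K W := Module.Basis.mk hw'li hw'span with hB
  have hBi : ∀ i, ((B i : W) : F) = w i := fun i => by
    rw [hB, Module.Basis.mk_apply]
  have horth' : ∀ c : Fin n → K, ∑ i, c i • ((B i : W) : F) ∈ (S c₁).Ov → ∀ i, c i ∈ (S c₁).A := by
    intro c hc
    apply hworth c
    have : ∑ i, c i • w i = ∑ i, c i • ((B i : W) : F) :=
      Finset.sum_congr rfl fun i _ => by rw [hBi]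
    rw [this]
    exact hc
  have hrepr : ∀ y : W, (y : F) ∈ (S c₁).Ov → ∀ i, B.repr y i ∈ (S c₁).A := fun y hy i =>
    repr_mem_of_orth (A := (S c₁).A) B horth' y hy i
  -- the coordinates of `e`
  set b : Fin n → K := fun i => B.repr ⟨e, heW⟩ i with hb
  have hsum : e = ∑ i, b i • w i := by
    have h := congrArg (Subtype.val) (B.sum_repr ⟨e, heW⟩)
    simp only [Submodule.coe_sum, Submodule.coe_smul] at h
    rw [← h]
    exact Finset.sum_congr rfl fun i _ => by rw [hBi]
  have hbne : ∃ i, b i ≠ 0 := by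
    by_contra hne
    apply he0
    rw [hsum]
    refine Finset.sum_eq_zero fun i _ => ?_
    have hi : b i = 0 := by
      by_contra h
      exact hne ⟨i, h⟩
    rw [hi, zero_smul]
  obtain ⟨i₁, hi₁⟩ := hbne
  obtain ⟨i₀, -, hmax⟩ := exists_max_entry (S c₁).A Finset.univ ⟨i₁, Finset.mem_univ _⟩ b
  have hb0 : b i₀ ≠ 0 := by
    rcases hmax i₁ (Finset.mem_univ _) with h | h
    · exact absurd h.2 hi₁
    · exact h.1
  have hmax' : ∀ i, b i / b i₀ ∈ (S c₁).A := fun i => by
    rcases hmax i (Finset.mem_univ _) with h | h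
    · exact absurd h.1 hb0
    · exact h.2
  -- `b i₀` is a unit of `A`
  have hbinv : (b i₀)⁻¹ ∈ (S c₁).A := by
    have h1 : (b i₀)⁻¹ • e ∈ (S c₁).Ov := by
      have : (b i₀)⁻¹ • e = ∑ i, (b i / b i₀) • w i := by
        rw [hsum, Finset.smul_sum]
        exact Finset.sum_congr rfl fun i _ => by rw [smul_smul, div_eq_inv_mul]
      rw [this]
      exact sum_smul_mem_Ov (S c₁) _ _ w hmax' hwO
    have h2 : algebraMap K F (b i₀)⁻¹ = ((b i₀)⁻¹ • e) * e⁻¹ := by
      rw [Algebra.smul_def, mul_assoc, mul_inv_cancel₀ he0, mul_one]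
    rw [← (S c₁).mem_Ov_iff, h2]
    exact mul_mem h1 hunit
  refine ⟨e, (b i₀)⁻¹ • B.coord i₀, heW, he0, fun he' => ?_, hint, c₁, fun y hy => ?_⟩
  · rw [LinearMap.smul_apply, Module.Basis.coord_apply, smul_eq_mul]
    exact inv_mul_cancel₀ hb0
  · rw [LinearMap.smul_apply, Module.Basis.coord_apply, smul_eq_mul]
    exact mul_mem hbinv (hrepr y hy i₀)

/-- **Orthonormal basis for the family**, by induction on the dimension. -/
theorem fam_exists_basis_aux [Finite κ] [Nonempty κ] (hA : ∀ c c' : κ, (S c).A = (S c').A)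
    (hL : ∀ c, HasLattice (S c)) :
    ∀ (d : ℕ) (W : Submodule K F), FiniteDimensional K W → Module.finrank K W = d →
      ∃ u : Fin d → F, (∀ i, u i ∈ W) ∧ (∀ i c, u i ∈ (S c).Ov) ∧ LinearIndependent K u ∧
        Submodule.span K (Set.range u) = W ∧
        ∀ a : Fin d → K, (∀ c, ∑ i, a i • u i ∈ (S c).Ov) → ∀ i c, a i ∈ (S c).A := by
  classical
  intro d
  induction d with
  | zero =>
    intro W hfd hW
    have hbot : W = ⊥ := Submodule.finrank_eq_zero.mp hW
    refine ⟨Fin.elim0, fun i => i.elim0, fun i => i.elim0, linearIndependent_empty_type, ?_,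
      fun _ _ i => i.elim0⟩
    rw [hbot]
    have : Set.range (Fin.elim0 : Fin 0 → F) = ∅ := Set.range_eq_empty _
    rw [this, Submodule.span_empty]
  | succ d ih =>
    intro W hfd hW
    have hne : W ≠ ⊥ := by
      intro h0
      rw [h0, finrank_bot] at hW
      omega
    obtain ⟨e, φ, heW, he0, hφe, heO, c₁, hφA⟩ := fam_exists_split S hA hL W hne
    have hφe' : φ ⟨e, heW⟩ = 1 := hφe heW
    set W' : Submodule K F := (LinearMap.ker φ).map W.subtype with hW'
    have hW'le : W' ≤ W := by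
      rintro _ ⟨x, -, rfl⟩
      exact x.2
    have hmemW' : ∀ x : F, x ∈ W' ↔ ∃ hx : x ∈ W, φ ⟨x, hx⟩ = 0 := by
      intro x
      constructor
      · rintro ⟨y, hy, rfl⟩
        exact ⟨y.2, hy⟩
      · rintro ⟨hx, h0⟩
        exact ⟨⟨x, hx⟩, h0, rfl⟩
    have hfdW' : FiniteDimensional K W' := Submodule.finiteDimensional_of_le hW'le
    have hsurj : Function.Surjective φ := by
      intro c
      refine ⟨c • ⟨e, heW⟩, ?_⟩
      rw [map_smul, hφe', smul_eq_mul, mul_one]
    have hfr : Module.finrank K W' = d := by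
      have h1 : Module.finrank K W' = Module.finrank K (LinearMap.ker φ) :=
        (LinearEquiv.finrank_eq
          (Submodule.equivMapOfInjective W.subtype W.injective_subtype (LinearMap.ker φ))).symm
      have h2 := LinearMap.finrank_range_add_finrank_ker φ
      rw [LinearMap.range_eq_top.mpr hsurj, finrank_top, Module.finrank_self, hW] at h2
      omega
    obtain ⟨u', hu'W, hu'O, hu'li, hu'span, hu'orth⟩ := ih W' hfdW' hfr
    -- the decomposition of a linear combination
    have hsum : ∀ a : Fin (d + 1) → K,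
        ∑ i, a i • (Fin.cons e u' : Fin (d + 1) → F) i =
          a 0 • e + ∑ i : Fin d, a i.succ • u' i := by
      intro a
      rw [Fin.sum_univ_succ]
      simp only [Fin.cons_zero, Fin.cons_succ]
    have hrestW : ∀ a : Fin d → K, ∑ i, a i • u' i ∈ W' := fun a =>
      W'.sum_mem fun i _ => W'.smul_mem _ (hu'W i)
    have hφsum : ∀ a : Fin (d + 1) → K,
        ∀ h : a 0 • e + ∑ i : Fin d, a i.succ • u' i ∈ W,
          φ ⟨a 0 • e + ∑ i : Fin d, a i.succ • u' i, h⟩ = a 0 := by
      intro a h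
      obtain ⟨hx, h0⟩ := (hmemW' _).mp (hrestW fun i => a i.succ)
      have : (⟨a 0 • e + ∑ i : Fin d, a i.succ • u' i, h⟩ : W) =
          a 0 • ⟨e, heW⟩ + ⟨∑ i : Fin d, a i.succ • u' i, hx⟩ := rfl
      rw [this, map_add, map_smul, hφe', h0, add_zero, smul_eq_mul, mul_one]
    refine ⟨Fin.cons e u', ?_, ?_, ?_, ?_, ?_⟩
    · intro i
      refine Fin.cases ?_ (fun j => ?_) i
      · simpa only [Fin.cons_zero] using heW
      · simpa only [Fin.cons_succ] using hW'le (hu'W j)
    · intro i c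
      refine Fin.cases ?_ (fun j => ?_) i
      · simpa only [Fin.cons_zero] using heO c
      · simpa only [Fin.cons_succ] using hu'O j c
    · rw [linearIndependent_finCons]
      refine ⟨hu'li, ?_⟩
      rw [hu'span, hmemW']
      rintro ⟨hx, h0⟩
      rw [hφe hx] at h0
      exact one_ne_zero h0
    · rw [Fin.range_cons, Submodule.span_insert, hu'span]
      apply le_antisymm
      · apply sup_le
        · rw [Submodule.span_le]
          rintro _ rfl
          exact heW
        · exact hW'le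
      · intro w hw
        have h1 : w = φ ⟨w, hw⟩ • e + (w - φ ⟨w, hw⟩ • e) := by ring
        rw [h1]
        apply Submodule.add_mem
        · exact Submodule.mem_sup_left
            (Submodule.smul_mem _ _ (Submodule.mem_span_singleton_self e))
        · apply Submodule.mem_sup_right
          rw [hmemW']
          have hmem : w - φ ⟨w, hw⟩ • e ∈ W := W.sub_mem hw (W.smul_mem _ heW)
          refine ⟨hmem, ?_⟩
          have : (⟨w - φ ⟨w, hw⟩ • e, hmem⟩ : W) = ⟨w, hw⟩ - φ ⟨w, hw⟩ • ⟨e, heW⟩ := rfl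
          rw [this, map_sub, map_smul, hφe', smul_eq_mul, mul_one, sub_self]
    · intro a ha
      have ha' : ∀ c, a 0 • e + ∑ i : Fin d, a i.succ • u' i ∈ (S c).Ov := fun c => by
        rw [← hsum]
        exact ha c
      have hmemW : a 0 • e + ∑ i : Fin d, a i.succ • u' i ∈ W :=
        W.add_mem (W.smul_mem _ heW) (hW'le (hrestW _))
      have h0 : a 0 ∈ (S c₁).A := by
        have := hφA ⟨_, hmemW⟩ (ha' c₁)
        rwa [hφsum a hmemW] at this
      have h0c : ∀ c, a 0 ∈ (S c).A := fun c => hA c₁ c ▸ h0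
      have hrest : ∀ c, ∑ i : Fin d, a i.succ • u' i ∈ (S c).Ov := fun c => by
        have := sub_mem (ha' c) ((S c).smul_mem (h0c c) (heO c))
        rwa [add_sub_cancel_left] at this
      have hall := hu'orth (fun i => a i.succ) hrest
      intro i c
      refine Fin.cases ?_ (fun j => ?_) i
      · exact h0c c
      · exact hall j c

/-- **Orthonormal basis for the family**: every finite-dimensional `K`-subspace `W` of `F` has a
`K`-basis `u` in `⋂_c O_c` with `W ∩ ⋂_c O_c = ⊕ A uᵢ`. -/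
theorem fam_exists_basis [Finite κ] [Nonempty κ] (hA : ∀ c c' : κ, (S c).A = (S c').A)
    (hL : ∀ c, HasLattice (S c)) (W : Submodule K F) [hfd : FiniteDimensional K W] :
    ∃ u : Fin (Module.finrank K W) → F, (∀ i, u i ∈ W) ∧ (∀ i c, u i ∈ (S c).Ov) ∧
      LinearIndependent K u ∧ Submodule.span K (Set.range u) = W ∧
      ∀ a : Fin (Module.finrank K W) → K, (∀ c, ∑ i, a i • u i ∈ (S c).Ov) →
        ∀ i c, a i ∈ (S c).A :=
  fam_exists_basis_aux S hA hL _ W hfd rfl

/-- the joint reduction of a linear combination with integral coefficients. -/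
theorem fam_red_sum_smul (c : κ) {n : ℕ} (a : Fin n → K) (u : Fin n → F)
    (ha : ∀ i, a i ∈ (S c).A) (hu : ∀ i, u i ∈ (S c).Ov) :
    (S c).red (∑ i, a i • u i) = ∑ i, (S c).res ⟨a i, ha i⟩ • (S c).red (u i) :=
  red_sum_smul (S c) Finset.univ a u ha hu

/-- the joint reductions of an orthonormal basis for the family are `k`-linearly independent. -/
theorem fam_linearIndependent_red [Finite κ] [Nonempty κ]
    (hA : ∀ c c' : κ, (S c).A = (S c').A)
    (hres : ∀ (c c' : κ) (x : K) (h : x ∈ (S c).A) (h' : x ∈ (S c').A),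
      (S c).res ⟨x, h⟩ = (S c').res ⟨x, h'⟩)
    {n : ℕ} (u : Fin n → F) (hu : ∀ i c, u i ∈ (S c).Ov) (huli : LinearIndependent K u)
    (horth : ∀ a : Fin n → K, (∀ c, ∑ i, a i • u i ∈ (S c).Ov) → ∀ i c, a i ∈ (S c).A) :
    LinearIndependent k (fun i => (fun c => (S c).red (u i) : ∀ c, Fk c)) := by
  classical
  obtain ⟨c₀⟩ := ‹Nonempty κ›
  rw [Fintype.linearIndependent_iff]
  intro g hg
  -- lift the coefficients
  choose a ha using fun i => (S c₀).res_surj (g i)
  have haA : ∀ c i, ((a i : (S c₀).A) : K) ∈ (S c).A := fun c i => hA c₀ c ▸ (a i).2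
  set x : F := ∑ i, ((a i : (S c₀).A) : K) • u i with hx
  have hxO : ∀ c, x ∈ (S c).Ov := fun c =>
    sum_smul_mem_Ov (S c) _ _ u (haA c) (fun i => hu i c)
  have hr : ∀ c, (S c).red x = 0 := by
    intro c
    have hgc : ∑ i, g i • (S c).red (u i) = 0 := by
      have := congrFun hg c
      simpa only [Finset.sum_apply, Pi.smul_apply, Pi.zero_apply] using this
    rw [hx, fam_red_sum_smul S c _ u (haA c) (fun i => hu i c), ← hgc]
    refine Finset.sum_congr rfl fun i _ => ?_
    rw [← ha i, hres c c₀ _ (haA c i) (a i).2]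
  have hzero : ∀ (t : K) (ht : t ∈ (S c₀).A), t⁻¹ ∉ (S c₀).A → (S c₀).res ⟨t, ht⟩ = 0 := by
    intro t ht hinv
    by_cases ht0 : t = 0
    · subst ht0
      exact map_zero (S c₀).res
    · obtain ⟨h', hres'⟩ := (S c₀).res_inv_eq_zero hinv
      have : (⟨t, ht⟩ : (S c₀).A) = ⟨t⁻¹⁻¹, h'⟩ := Subtype.ext (inv_inv t).symm
      rw [this]
      exact hres'
  intro i
  rw [← ha i]
  by_cases hx0 : x = 0
  · have h := Fintype.linearIndependent_iff.mp huli (fun i => ((a i : (S c₀).A) : K))
      (hx ▸ hx0) i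
    have : a i = 0 := Subtype.ext h
    rw [this, map_zero]
  · obtain ⟨d, hd0, hint, c₁, hunit⟩ := fam_exists_normalise S hA hx0
    have hd' : algebraMap K F d ≠ 0 := by simpa using hd0
    -- `d` is a nonunit of `A`
    have hdA : d ∈ (S c₁).A ∧ d⁻¹ ∉ (S c₁).A := by
      have hmem : algebraMap K F d ∈ (S c₁).Ov := by
        have : algebraMap K F d = x * (d⁻¹ • x)⁻¹ := by
          rw [Algebra.smul_def, map_inv₀, mul_inv, inv_inv, mul_comm (algebraMap K F d),
            ← mul_assoc, mul_inv_cancel₀ hx0, one_mul]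
        rw [this]
        exact mul_mem (hxO c₁) hunit
      refine ⟨((S c₁).mem_Ov_iff _).mp hmem, fun hinv => ?_⟩
      have h3 : (S c₁).red (d⁻¹ • x) = 0 := by
        rw [(S c₁).red_smul hinv (hxO c₁), hr c₁, smul_zero]
      have hne : d⁻¹ • x ≠ 0 := smul_ne_zero (inv_ne_zero hd0) hx0
      exact ((S c₁).red_eq_zero_iff (hint c₁) hne).mp h3 hunit
    have hdA₀ : d ∈ (S c₀).A ∧ d⁻¹ ∉ (S c₀).A := by
      rw [hA c₀ c₁]
      exact hdA
    have hsum : d⁻¹ • x = ∑ i, (d⁻¹ * ((a i : (S c₀).A) : K)) • u i := by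
      rw [hx, Finset.smul_sum]
      exact Finset.sum_congr rfl fun i _ => smul_smul _ _ _
    have hai := horth _ (fun c => by rw [← hsum]; exact hint c) i c₀
    have hprod : a i = ⟨d, hdA₀.1⟩ * ⟨d⁻¹ * ((a i : (S c₀).A) : K), hai⟩ := by
      apply Subtype.ext
      show ((a i : (S c₀).A) : K) = d * (d⁻¹ * ((a i : (S c₀).A) : K))
      rw [← mul_assoc, mul_inv_cancel₀ hd0, one_mul]
    rw [hprod, map_mul, hzero d hdA₀.1 hdA₀.2, zero_mul]

end Family

/-! ### The reduction spaces `V(D)` of a `GraphCore` -/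

section Core

variable {K F k : Type*} [Field K] [Field F] [Algebra K F] [Field k]
  {κ : Type*} {Fk : κ → Type*} [∀ c, Field (Fk c)] [∀ c, Algebra k (Fk c)] {ι : Type*}
  (C : GraphCore K F k κ Fk ι)

theorem GraphCore.redAll_apply (f : F) (c : κ) : C.redAll f c = (C.S c).red f := rfl

@[simp] theorem GraphCore.redAll_zero : C.redAll 0 = 0 := by
  funext c
  exact (C.S c).red_zero

@[simp] theorem GraphCore.redAll_one : C.redAll 1 = 1 := by
  funext c
  exact (C.S c).red_one

theorem GraphCore.redAll_add {f g : F} (hf : ∀ c, f ∈ (C.S c).Ov) (hg : ∀ c, g ∈ (C.S c).Ov) :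
    C.redAll (f + g) = C.redAll f + C.redAll g := by
  funext c
  exact (C.S c).red_add (hf c) (hg c)

theorem GraphCore.redAll_mul {f g : F} (hf : ∀ c, f ∈ (C.S c).Ov) (hg : ∀ c, g ∈ (C.S c).Ov) :
    C.redAll (f * g) = C.redAll f * C.redAll g := by
  funext c
  exact (C.S c).red_mul (hf c) (hg c)

theorem GraphCore.mem_A {c₀ : κ} {x : K} (hx : x ∈ (C.S c₀).A) (c : κ) : x ∈ (C.S c).A :=
  C.A_eq c₀ c ▸ hx

theorem GraphCore.redAll_smul {c₀ : κ} {x : K} (hx : x ∈ (C.S c₀).A) {f : F}
    (hf : ∀ c, f ∈ (C.S c).Ov) : C.redAll (x • f) = (C.S c₀).res ⟨x, hx⟩ • C.redAll f := by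
  funext c
  show (C.S c).red (x • f) = (C.S c₀).res ⟨x, hx⟩ • (C.S c).red f
  rw [(C.S c).red_smul (C.mem_A hx c) (hf c), C.res_eq c c₀ x (C.mem_A hx c) hx]

theorem GraphCore.IsInt.mono {D D' : Divisor K F} (h : D ≤ D') {f : F} (hf : C.IsInt D f) :
    C.IsInt D' f :=
  ⟨riemannRochSpace_mono h hf.1, hf.2⟩

theorem GraphCore.IsInt.mul {D D' : Divisor K F} {f g : F}
    (hf : C.IsInt D f) (hg : C.IsInt D' g) : C.IsInt (D + D') (f * g) :=
  ⟨mul_mem_riemannRochSpace_add hf.1 hg.1, fun c => mul_mem (hf.2 c) (hg.2 c)⟩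

theorem GraphCore.IsInt.add {D : Divisor K F} {f g : F}
    (hf : C.IsInt D f) (hg : C.IsInt D g) : C.IsInt D (f + g) :=
  ⟨add_mem hf.1 hg.1, fun c => add_mem (hf.2 c) (hg.2 c)⟩

theorem GraphCore.IsInt.smul {D : Divisor K F} {c₀ : κ} {x : K} (hx : x ∈ (C.S c₀).A) {f : F}
    (hf : C.IsInt D f) : C.IsInt D (x • f) :=
  ⟨Submodule.smul_mem _ x hf.1, fun c => (C.S c).smul_mem (C.mem_A hx c) (hf.2 c)⟩

theorem GraphCore.isInt_zero (D : Divisor K F) : C.IsInt D 0 :=
  ⟨zero_mem _, fun _ => zero_mem _⟩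

/-- the span is the set itself. -/
theorem GraphCore.mem_V_iff [Nonempty κ] (D : Divisor K F) {y : ∀ c, Fk c} :
    y ∈ C.V D ↔ ∃ f, C.IsInt D f ∧ C.redAll f = y := by
  obtain ⟨c₀⟩ := ‹Nonempty κ›
  constructor
  · intro hy
    unfold GraphCore.V at hy
    induction hy using Submodule.span_induction with
    | mem y hy => exact hy
    | zero => exact ⟨0, C.isInt_zero D, C.redAll_zero⟩
    | add y y' _ _ hy hy' =>
      obtain ⟨f, hf, rfl⟩ := hy
      obtain ⟨g, hg, rfl⟩ := hy'
      exact ⟨f + g, hf.add C hg, C.redAll_add hf.2 hg.2⟩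
    | smul l y _ hy =>
      obtain ⟨f, hf, rfl⟩ := hy
      obtain ⟨⟨x, hx⟩, rfl⟩ := (C.S c₀).res_surj l
      exact ⟨x • f, hf.smul C hx, C.redAll_smul hx hf.2⟩
  · intro hy
    exact Submodule.subset_span hy

theorem GraphCore.redAll_mem_V {D : Divisor K F} {f : F} (hf : C.IsInt D f) :
    C.redAll f ∈ C.V D :=
  Submodule.subset_span ⟨f, hf, rfl⟩

theorem GraphCore.V_mono {D D' : Divisor K F} (h : D ≤ D') : C.V D ≤ C.V D' := by
  apply Submodule.span_mono
  rintro y ⟨f, hf, rfl⟩
  exact ⟨f, hf.mono C h, rfl⟩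

/-- `V(D) · V(D') ⊂ V(D + D')`. -/
theorem GraphCore.mul_mem_V [Nonempty κ] {D D' : Divisor K F} {y y' : ∀ c, Fk c}
    (hy : y ∈ C.V D) (hy' : y' ∈ C.V D') : y * y' ∈ C.V (D + D') := by
  obtain ⟨f, hf, rfl⟩ := (C.mem_V_iff D).mp hy
  obtain ⟨g, hg, rfl⟩ := (C.mem_V_iff D').mp hy'
  rw [← C.redAll_mul hf.2 hg.2]
  exact C.redAll_mem_V (hf.mul C hg)

/-- the constants of `V(D)`, `D ≥ 0`... more generally `1 ∈ L(D)`. -/
theorem GraphCore.algebraMap_mem_V [Nonempty κ] {D : Divisor K F}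
    (h1 : (1 : F) ∈ riemannRochSpace D) (l : k) :
    (fun c => algebraMap k (Fk c) l : ∀ c, Fk c) ∈ C.V D := by
  obtain ⟨c₀⟩ := ‹Nonempty κ›
  obtain ⟨⟨x, hx⟩, rfl⟩ := (C.S c₀).res_surj l
  have hmem : algebraMap K F x ∈ riemannRochSpace D := by
    rw [Algebra.algebraMap_eq_smul_one]
    exact Submodule.smul_mem _ x h1
  have e : C.redAll (algebraMap K F x) = fun c => algebraMap k (Fk c) ((C.S c₀).res ⟨x, hx⟩) := by
    funext c
    show (C.S c).red (algebraMap K F x) = _
    rw [(C.S c).red_algebraMap (C.mem_A hx c), C.res_eq c c₀ x (C.mem_A hx c) hx]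
  rw [← e]
  exact C.redAll_mem_V ⟨hmem, fun c => (C.S c).algebraMap_mem (C.mem_A hx c)⟩

/-- **orthonormal basis of `L(D)` for the family**. -/
theorem GraphCore.exists_basis [Finite κ] [Nonempty κ] (D : Divisor K F) :
    ∃ u : Fin (ell D) → F, (∀ i, C.IsInt D (u i)) ∧ LinearIndependent K u ∧
      Submodule.span K (Set.range u) = riemannRochSpace D ∧
      (∀ a : Fin (ell D) → K, (∀ c, ∑ i, a i • u i ∈ (C.S c).Ov) → ∀ i c, a i ∈ (C.S c).A) ∧
      LinearIndependent k (fun i => C.redAll (u i)) := by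
  obtain ⟨c₀⟩ := ‹Nonempty κ›
  haveI : Nonempty κ := ⟨c₀⟩
  haveI : FiniteDimensional K (riemannRochSpace D) := finite_riemannRochSpace (C.S c₀).hF D
  obtain ⟨u, huW, huO, huli, huspan, horth⟩ :=
    fam_exists_basis C.S C.A_eq C.lat (riemannRochSpace D)
  exact ⟨u, fun i => ⟨huW i, huO i⟩, huli, huspan, horth,
    fam_linearIndependent_red C.S C.A_eq C.res_eq u huO huli horth⟩

/-- `V(D)` is spanned by the joint reductions of an orthonormal basis. -/
theorem GraphCore.V_eq_span [Finite κ] [Nonempty κ] (D : Divisor K F) {n : ℕ} {u : Fin n → F}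
    (hu : ∀ i, C.IsInt D (u i)) (hspan : Submodule.span K (Set.range u) = riemannRochSpace D)
    (horth : ∀ a : Fin n → K, (∀ c, ∑ i, a i • u i ∈ (C.S c).Ov) → ∀ i c, a i ∈ (C.S c).A) :
    C.V D = Submodule.span k (Set.range fun i => C.redAll (u i)) := by
  obtain ⟨c₀⟩ := ‹Nonempty κ›
  haveI : Nonempty κ := ⟨c₀⟩
  apply le_antisymm
  · intro y hy
    obtain ⟨f, hf, rfl⟩ := (C.mem_V_iff D).mp hy
    have hfW := hf.1
    rw [← hspan] at hfW
    obtain ⟨a, rfl⟩ := (Submodule.mem_span_range_iff_exists_fun K).mp hfW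
    have ha := horth a hf.2
    have e : C.redAll (∑ i, a i • u i) =
        ∑ i, (C.S c₀).res ⟨a i, ha i c₀⟩ • C.redAll (u i) := by
      funext c
      show (C.S c).red (∑ i, a i • u i) = _
      rw [fam_red_sum_smul C.S c a u (fun i => ha i c) (fun i => (hu i).2 c), Finset.sum_apply]
      refine Finset.sum_congr rfl fun i _ => ?_
      rw [Pi.smul_apply, C.res_eq c c₀ (a i) (ha i c) (ha i c₀)]
      rfl
    rw [e]
    exact Submodule.sum_mem _ fun i _ =>
      Submodule.smul_mem _ _ (Submodule.subset_span ⟨i, rfl⟩)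
  · rw [Submodule.span_le]
    rintro y ⟨i, rfl⟩
    exact C.redAll_mem_V (hu i)

/-- **(PL) the JOINT LATTICE property**: `dim_k V(D) = ℓ(D)`. -/
theorem GraphCore.finrank_V [Finite κ] [Nonempty κ] (D : Divisor K F) :
    Module.finrank k (C.V D) = ell D := by
  obtain ⟨u, hu, -, hspan, horth, hli⟩ := C.exists_basis D
  rw [C.V_eq_span D hu hspan horth, finrank_span_eq_card hli, Fintype.card_fin]

theorem GraphCore.finite_V [Finite κ] [Nonempty κ] (D : Divisor K F) :
    FiniteDimensional k (C.V D) := by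
  obtain ⟨u, hu, -, hspan, horth, -⟩ := C.exists_basis D
  rw [C.V_eq_span D hu hspan horth]
  exact FiniteDimensional.span_of_finite k (Set.finite_range _)

/-- a nonzero function has, after scaling by a constant, a nonzero joint reduction. -/
theorem GraphCore.exists_smul_redAll_ne_zero [Finite κ] [Nonempty κ] {x : F} (hx : x ≠ 0) :
    ∃ d : K, d ≠ 0 ∧ (∀ c, d • x ∈ (C.S c).Ov) ∧ C.redAll (d • x) ≠ 0 := by
  obtain ⟨d, hd0, hint, c₁, hunit⟩ := fam_exists_normalise C.S C.A_eq hx
  refine ⟨d⁻¹, inv_ne_zero hd0, hint, fun h0 => ?_⟩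
  have h1 : (C.S c₁).red (d⁻¹ • x) = 0 := congrFun h0 c₁
  exact (C.S c₁).red_ne_zero (hint c₁) hunit (smul_ne_zero (inv_ne_zero hd0) hx) h1

end Core

end Fermat.Agent.BadRedG
end
end MergeWrap_Lib_BadRed_Graph_RedSpaceG
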