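import Mathlib
import Fermat.Agent.MUL.Lib.BadRed.Graph.Seed
import Fermat.Agent.MUL.Orig.S27.GR.Steps

section MergeWrap_Lib_BadRed_Graph_RRGraph -- from Lib/BadRed/Graph/RRGraph.lean

set_option autoImplicit false
set_option linter.style.haveILetI false
set_option linter.unusedSectionVars false

/-!
# Cluster G, G-DEU, seat DEU-1: Riemann–Roch on a nodal curve with a GRAPH of components

Port of `Nodal/RRNodal.lean` (cluster T, two components) to a finite family `κ` of components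
and a finite set `ι` of nodes; the node `i` glues the point `s₁ i` of the component `src i` to the
point `s₂ i` of the component `tgt i`.  All the `2 |ι|` branch points are different
(`s₁_inj`, `s₂_inj`, `s₁_ne_s₂`, as in `GraphCore`); `src i ≠ tgt i` and connectedness are NOT
used.

* `graphRRBranchesAt src tgt s₁ s₂ c` : the finite set of the branch points on the component `c`;
* `graphRRVal` : the linear map `graphRR → k ^ ι`, the common value at the nodes;
* `graphRRVal_surjective` : every family of values at the nodes is taken, if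
  `2 g_c - 2 < deg R_c - #(branches on c)` for all `c`;
* `finrank_graphRR` : under the same hypothesis
  `dim graphRR = Σ_c (deg R_c + 1 - g_c) - |ι|`;
* `finrank_graphRR_of_two_mul` : the same under the simpler hypothesis
  `2 g_c - 2 + 2 |ι| < deg R_c`;
* `finrank_graphRR_le` : the unconditional bound
  `dim graphRR ≤ Σ_c ℓ(R_c - branches on c) + |ι|`.

Proof: `0 → ∏_c L(R_c - branches on c) → graphRR → k ^ ι → 0` is exact.
-/

noncomputable section

open AlgebraicCurve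

namespace Fermat.Agent.BadRedG

open Fermat.Agent.BadRed Fermat.Agent.RR

variable {k : Type*} [Field k] {κ : Type*} {Fk : κ → Type*} [∀ c, Field (Fk c)]
  [∀ c, Algebra k (Fk c)] {ι : Type*}

theorem mem_graphRR {src tgt : ι → κ} {s₁ : ∀ i : ι, Place k (Fk (src i))}
    {s₂ : ∀ i : ι, Place k (Fk (tgt i))} {R : ∀ c, Divisor k (Fk c)} {y : ∀ c, Fk c} :
    y ∈ graphRR src tgt s₁ s₂ R ↔ (∀ c, y c ∈ riemannRochSpace (R c)) ∧
      ∀ i, ∃ a : k, ValAt (s₁ i) (y (src i)) a ∧ ValAt (s₂ i) (y (tgt i)) a := Iff.rfl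

/-! ### The branch points -/

section Branches

variable [Fintype ι] (src tgt : ι → κ) (s₁ : ∀ i : ι, Place k (Fk (src i)))
  (s₂ : ∀ i : ι, Place k (Fk (tgt i)))

open Classical in
/-- all the branch points of the nodes, in the disjoint union of the components. -/
def graphRRBranches : Finset (Σ c, Place k (Fk c)) :=
  (Finset.univ.image fun i => (⟨src i, s₁ i⟩ : Σ c, Place k (Fk c))) ∪
    (Finset.univ.image fun i => (⟨tgt i, s₂ i⟩ : Σ c, Place k (Fk c)))

omit [Fintype ι] in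
theorem graph_sigma_mk_injective (c : κ) :
    Function.Injective (fun Q : Place k (Fk c) => (⟨c, Q⟩ : Σ c, Place k (Fk c))) :=
  fun _ _ h => eq_of_heq (Sigma.mk.inj_iff.mp h).2

open Classical in
/-- the branch points on the component `c`. -/
def graphRRBranchesAt (c : κ) : Finset (Place k (Fk c)) :=
  Finset.preimage (graphRRBranches src tgt s₁ s₂)
    (fun Q : Place k (Fk c) => (⟨c, Q⟩ : Σ c, Place k (Fk c)))
    (graph_sigma_mk_injective c).injOn

variable {src tgt s₁ s₂}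

theorem mem_graphRRBranches {x : Σ c, Place k (Fk c)} :
    x ∈ graphRRBranches src tgt s₁ s₂ ↔
      (∃ i, (⟨src i, s₁ i⟩ : Σ c, Place k (Fk c)) = x) ∨
        ∃ i, (⟨tgt i, s₂ i⟩ : Σ c, Place k (Fk c)) = x := by
  classical
  unfold graphRRBranches
  rw [Finset.mem_union, Finset.mem_image, Finset.mem_image]
  simp only [Finset.mem_univ, true_and]

theorem mem_graphRRBranchesAt {c : κ} {Q : Place k (Fk c)} :
    Q ∈ graphRRBranchesAt src tgt s₁ s₂ c ↔
      (⟨c, Q⟩ : Σ c, Place k (Fk c)) ∈ graphRRBranches src tgt s₁ s₂ := by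
  classical
  unfold graphRRBranchesAt
  exact Finset.mem_preimage

theorem src_mem_graphRRBranchesAt (i : ι) : s₁ i ∈ graphRRBranchesAt src tgt s₁ s₂ (src i) :=
  mem_graphRRBranchesAt.mpr (mem_graphRRBranches.mpr (Or.inl ⟨i, rfl⟩))

theorem tgt_mem_graphRRBranchesAt (i : ι) : s₂ i ∈ graphRRBranchesAt src tgt s₁ s₂ (tgt i) :=
  mem_graphRRBranchesAt.mpr (mem_graphRRBranches.mpr (Or.inr ⟨i, rfl⟩))

/-- a property of the two branches of every node holds at all the branch points. -/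
theorem forall_graphRRBranches {p : (Σ c, Place k (Fk c)) → Prop}
    (h₁ : ∀ i, p ⟨src i, s₁ i⟩) (h₂ : ∀ i, p ⟨tgt i, s₂ i⟩)
    {x : Σ c, Place k (Fk c)} (hx : x ∈ graphRRBranches src tgt s₁ s₂) : p x := by
  rcases mem_graphRRBranches.mp hx with ⟨i, rfl⟩ | ⟨i, rfl⟩
  · exact h₁ i
  · exact h₂ i

theorem forall_graphRRBranchesAt {p : ∀ c, Place k (Fk c) → Prop}
    (h₁ : ∀ i, p (src i) (s₁ i)) (h₂ : ∀ i, p (tgt i) (s₂ i))
    {c : κ} {Q : Place k (Fk c)} (hQ : Q ∈ graphRRBranchesAt src tgt s₁ s₂ c) : p c Q :=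
  forall_graphRRBranches (p := fun x => p x.1 x.2) h₁ h₂ (mem_graphRRBranchesAt.mp hQ)

theorem card_graphRRBranches
    (s₁_inj : ∀ i j : ι, (⟨src i, s₁ i⟩ : Σ c, Place k (Fk c)) = ⟨src j, s₁ j⟩ → i = j)
    (s₂_inj : ∀ i j : ι, (⟨tgt i, s₂ i⟩ : Σ c, Place k (Fk c)) = ⟨tgt j, s₂ j⟩ → i = j)
    (s₁_ne_s₂ : ∀ i j : ι, (⟨src i, s₁ i⟩ : Σ c, Place k (Fk c)) ≠ ⟨tgt j, s₂ j⟩) :
    (graphRRBranches src tgt s₁ s₂).card = 2 * Fintype.card ι := by
  classical
  unfold graphRRBranches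
  rw [Finset.card_union_of_disjoint, Finset.card_image_of_injective _ (fun i j h => s₁_inj i j h),
    Finset.card_image_of_injective _ (fun i j h => s₂_inj i j h), Finset.card_univ, two_mul]
  rw [Finset.disjoint_left]
  intro x hx hx'
  obtain ⟨i, -, rfl⟩ := Finset.mem_image.mp hx
  obtain ⟨j, -, hj⟩ := Finset.mem_image.mp hx'
  exact s₁_ne_s₂ i j hj.symm

theorem sum_card_graphRRBranchesAt [Fintype κ] :
    (∑ c, (graphRRBranchesAt src tgt s₁ s₂ c).card) = (graphRRBranches src tgt s₁ s₂).card := by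
  classical
  have h : graphRRBranches src tgt s₁ s₂ =
      (Finset.univ : Finset κ).sigma (fun c => graphRRBranchesAt src tgt s₁ s₂ c) := by
    ext ⟨c, Q⟩
    rw [Finset.mem_sigma, mem_graphRRBranchesAt]
    simp only [Finset.mem_univ, true_and]
  rw [h, Finset.card_sigma]

theorem card_graphRRBranchesAt_le (c : κ) :
    (graphRRBranchesAt src tgt s₁ s₂ c).card ≤ 2 * Fintype.card ι := by
  classical
  have h1 : (graphRRBranchesAt src tgt s₁ s₂ c).card ≤ (graphRRBranches src tgt s₁ s₂).card := by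
    refine Finset.card_le_card_of_injOn
      (fun Q : Place k (Fk c) => (⟨c, Q⟩ : Σ c, Place k (Fk c))) (fun Q hQ => ?_)
      (graph_sigma_mk_injective c).injOn
    exact mem_graphRRBranchesAt.mp hQ
  have h2 : (graphRRBranches src tgt s₁ s₂).card ≤ 2 * Fintype.card ι := by
    unfold graphRRBranches
    refine (Finset.card_union_le _ _).trans ?_
    have a1 := Finset.card_image_le (s := (Finset.univ : Finset ι))
      (f := fun i => (⟨src i, s₁ i⟩ : Σ c, Place k (Fk c)))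
    have a2 := Finset.card_image_le (s := (Finset.univ : Finset ι))
      (f := fun i => (⟨tgt i, s₂ i⟩ : Σ c, Place k (Fk c)))
    rw [Finset.card_univ] at a1 a2
    omega
  exact h1.trans h2

end Branches

/-! ### The value at the nodes -/

section Val

variable (src tgt : ι → κ) (s₁ : ∀ i : ι, Place k (Fk (src i)))
  (s₂ : ∀ i : ι, Place k (Fk (tgt i))) (R : ∀ c, Divisor k (Fk c))

/-- the common value of a tuple of `graphRR` at the nodes. -/
def graphRRVal : ↥(graphRR src tgt s₁ s₂ R) →ₗ[k] (ι → k) where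
  toFun y i := Classical.choose (y.2.2 i)
  map_add' := by
    intro x y
    funext i
    have hx := (Classical.choose_spec (x.2.2 i)).1
    have hy := (Classical.choose_spec (y.2.2 i)).1
    have hxy := (Classical.choose_spec ((x + y).2.2 i)).1
    exact hxy.unique (hx.add hy)
  map_smul' := by
    intro a x
    funext i
    have hx := (Classical.choose_spec (x.2.2 i)).1
    have hax := (Classical.choose_spec ((a • x).2.2 i)).1
    exact hax.unique (hx.smul a)

variable {src tgt s₁ s₂ R}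

theorem graphRRVal_spec₁ (y : ↥(graphRR src tgt s₁ s₂ R)) (i : ι) :
    ValAt (s₁ i) ((y : ∀ c, Fk c) (src i)) (graphRRVal src tgt s₁ s₂ R y i) :=
  (Classical.choose_spec (y.2.2 i)).1

theorem graphRRVal_spec₂ (y : ↥(graphRR src tgt s₁ s₂ R)) (i : ι) :
    ValAt (s₂ i) ((y : ∀ c, Fk c) (tgt i)) (graphRRVal src tgt s₁ s₂ R y i) :=
  (Classical.choose_spec (y.2.2 i)).2

theorem graphRRVal_eq_of_valAt₁ (y : ↥(graphRR src tgt s₁ s₂ R)) (i : ι) {a : k}
    (h : ValAt (s₁ i) ((y : ∀ c, Fk c) (src i)) a) : graphRRVal src tgt s₁ s₂ R y i = a :=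
  (graphRRVal_spec₁ y i).unique h

theorem graphRRVal_eq_of_valAt₂ (y : ↥(graphRR src tgt s₁ s₂ R)) (i : ι) {a : k}
    (h : ValAt (s₂ i) ((y : ∀ c, Fk c) (tgt i)) a) : graphRRVal src tgt s₁ s₂ R y i = a :=
  (graphRRVal_spec₂ y i).unique h

end Val

/-! ### Finiteness -/

theorem finite_graphRR [Finite κ] (h : ∀ c, IsRRField k (Fk c)) (src tgt : ι → κ)
    (s₁ : ∀ i : ι, Place k (Fk (src i))) (s₂ : ∀ i : ι, Place k (Fk (tgt i)))
    (R : ∀ c, Divisor k (Fk c)) : Module.Finite k (graphRR src tgt s₁ s₂ R) := by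
  haveI : ∀ c, Module.Finite k (riemannRochSpace (R c)) := fun c =>
    finite_riemannRochSpace (h c) (R c)
  let f : ↥(graphRR src tgt s₁ s₂ R) →ₗ[k] (∀ c, ↥(riemannRochSpace (R c))) :=
    LinearMap.pi fun c =>
      LinearMap.codRestrict (riemannRochSpace (R c))
        ((LinearMap.proj c) ∘ₗ (graphRR src tgt s₁ s₂ R).subtype) (fun y => y.2.1 c)
  have hf : Function.Injective f := by
    intro x y hxy
    apply Subtype.ext
    funext c
    have := congrArg (fun z : ∀ c, ↥(riemannRochSpace (R c)) => ((z c : Fk c))) hxy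
    exact this
  exact Module.Finite.of_injective f hf

/-! ### The exact sequence and the dimension -/

section Dim

variable [Fintype ι] [Fintype κ] (src tgt : ι → κ) (s₁ : ∀ i : ι, Place k (Fk (src i)))
  (s₂ : ∀ i : ι, Place k (Fk (tgt i))) (R : ∀ c, Divisor k (Fk c))

/-- the inclusion of the tuples vanishing at all the branch points. -/
def graphRRIncl (hR₁ : ∀ i, R (src i) (s₁ i) = 0) (hR₂ : ∀ i, R (tgt i) (s₂ i) = 0) :
    (∀ c, ↥(riemannRochSpace (R c - sumPlaces (graphRRBranchesAt src tgt s₁ s₂ c)))) →ₗ[k]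
      ↥(graphRR src tgt s₁ s₂ R) :=
  LinearMap.codRestrict (graphRR src tgt s₁ s₂ R)
    (LinearMap.pi fun c =>
      (riemannRochSpace (R c - sumPlaces (graphRRBranchesAt src tgt s₁ s₂ c))).subtype ∘ₗ
        LinearMap.proj c)
    (fun z => by
      have hNR : ∀ c, ∀ Q ∈ graphRRBranchesAt src tgt s₁ s₂ c, R c Q = 0 := fun c Q hQ =>
        forall_graphRRBranchesAt (p := fun c Q => R c Q = 0) hR₁ hR₂ hQ
      have hz : ∀ c, (z c : Fk c) ∈ riemannRochSpace (R c) ∧
          ∀ Q ∈ graphRRBranchesAt src tgt s₁ s₂ c, VanAt Q (z c : Fk c) := fun c =>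
        (mem_riemannRochSpace_sub_sumPlaces_iff (hNR c) _).mp (z c).2
      refine ⟨fun c => (hz c).1, fun i => ⟨0, ?_, ?_⟩⟩
      · exact (valAt_zero_right_iff _ _).mpr ((hz (src i)).2 _ (src_mem_graphRRBranchesAt i))
      · exact (valAt_zero_right_iff _ _).mpr ((hz (tgt i)).2 _ (tgt_mem_graphRRBranchesAt i)))

variable {src tgt s₁ s₂ R}

theorem graphRRIncl_apply (hR₁ : ∀ i, R (src i) (s₁ i) = 0) (hR₂ : ∀ i, R (tgt i) (s₂ i) = 0)
    (z : ∀ c, ↥(riemannRochSpace (R c - sumPlaces (graphRRBranchesAt src tgt s₁ s₂ c)))) (c : κ) :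
    ((graphRRIncl src tgt s₁ s₂ R hR₁ hR₂ z : ↥(graphRR src tgt s₁ s₂ R)) : ∀ c, Fk c) c =
      (z c : Fk c) := rfl

theorem graphRRIncl_injective (hR₁ : ∀ i, R (src i) (s₁ i) = 0)
    (hR₂ : ∀ i, R (tgt i) (s₂ i) = 0) :
    Function.Injective (graphRRIncl src tgt s₁ s₂ R hR₁ hR₂) := by
  intro x y hxy
  funext c
  apply Subtype.ext
  have := congrArg (fun z : ↥(graphRR src tgt s₁ s₂ R) => (z : ∀ c, Fk c) c) hxy
  exact this

/-- exactness in the middle: the kernel of the value map is the space of the tuples vanishing at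
all the branch points. -/
theorem ker_graphRRVal (hR₁ : ∀ i, R (src i) (s₁ i) = 0) (hR₂ : ∀ i, R (tgt i) (s₂ i) = 0) :
    LinearMap.ker (graphRRVal src tgt s₁ s₂ R) =
      LinearMap.range (graphRRIncl src tgt s₁ s₂ R hR₁ hR₂) := by
  have hNR : ∀ c, ∀ Q ∈ graphRRBranchesAt src tgt s₁ s₂ c, R c Q = 0 := fun c Q hQ =>
    forall_graphRRBranchesAt (p := fun c Q => R c Q = 0) hR₁ hR₂ hQ
  ext y
  rw [LinearMap.mem_ker, LinearMap.mem_range]
  constructor
  · intro hy
    have h1 : ∀ i, VanAt (s₁ i) ((y : ∀ c, Fk c) (src i)) := fun i => by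
      have := graphRRVal_spec₁ y i
      rw [hy] at this
      exact (valAt_zero_right_iff _ _).mp this
    have h2 : ∀ i, VanAt (s₂ i) ((y : ∀ c, Fk c) (tgt i)) := fun i => by
      have := graphRRVal_spec₂ y i
      rw [hy] at this
      exact (valAt_zero_right_iff _ _).mp this
    have hmem : ∀ c, (y : ∀ c, Fk c) c ∈
        riemannRochSpace (R c - sumPlaces (graphRRBranchesAt src tgt s₁ s₂ c)) := fun c => by
      rw [mem_riemannRochSpace_sub_sumPlaces_iff (hNR c)]
      exact ⟨y.2.1 c, fun Q hQ =>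
        forall_graphRRBranchesAt (p := fun c Q => VanAt Q ((y : ∀ c, Fk c) c)) h1 h2 hQ⟩
    exact ⟨fun c => ⟨_, hmem c⟩, Subtype.ext rfl⟩
  · rintro ⟨z, rfl⟩
    funext i
    apply graphRRVal_eq_of_valAt₁
    rw [graphRRIncl_apply]
    have hz := ((mem_riemannRochSpace_sub_sumPlaces_iff (hNR (src i)) _).mp (z (src i)).2).2 _
      (src_mem_graphRRBranchesAt i)
    exact (valAt_zero_right_iff _ _).mpr hz

open Classical in
/-- **Interpolation at the nodes**: every family of values at the nodes is taken by a tuple of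
`graphRR`, if `2 g_c - 2 < deg R_c - #(branches on c)` for every component `c`. -/
theorem graphRRVal_surjective (h : ∀ c, IsRRField k (Fk c))
    (s₁_inj : ∀ i j : ι, (⟨src i, s₁ i⟩ : Σ c, Place k (Fk c)) = ⟨src j, s₁ j⟩ → i = j)
    (s₂_inj : ∀ i j : ι, (⟨tgt i, s₂ i⟩ : Σ c, Place k (Fk c)) = ⟨tgt j, s₂ j⟩ → i = j)
    (s₁_ne_s₂ : ∀ i j : ι, (⟨src i, s₁ i⟩ : Σ c, Place k (Fk c)) ≠ ⟨tgt j, s₂ j⟩)
    (hR₁ : ∀ i, R (src i) (s₁ i) = 0) (hR₂ : ∀ i, R (tgt i) (s₂ i) = 0)
    (hdeg : ∀ c, 2 * (genusFF k (Fk c) : ℤ) - 2 <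
      Divisor.degree (R c) - (graphRRBranchesAt src tgt s₁ s₂ c).card) :
    Function.Surjective (graphRRVal src tgt s₁ s₂ R) := by
  intro d
  have hNR : ∀ c, ∀ Q ∈ graphRRBranchesAt src tgt s₁ s₂ c, R c Q = 0 := fun c Q hQ =>
    forall_graphRRBranchesAt (p := fun c Q => R c Q = 0) hR₁ hR₂ hQ
  -- the prescribed values at the branch points
  let v : (Σ c, Place k (Fk c)) → k := fun x =>
    if hx : ∃ i, (⟨src i, s₁ i⟩ : Σ c, Place k (Fk c)) = x ∨
        (⟨tgt i, s₂ i⟩ : Σ c, Place k (Fk c)) = x then d hx.choose else 0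
  have hv₁ : ∀ i, v ⟨src i, s₁ i⟩ = d i := by
    intro i
    have hx : ∃ j, (⟨src j, s₁ j⟩ : Σ c, Place k (Fk c)) = ⟨src i, s₁ i⟩ ∨
        (⟨tgt j, s₂ j⟩ : Σ c, Place k (Fk c)) = ⟨src i, s₁ i⟩ := ⟨i, Or.inl rfl⟩
    have hvx : v ⟨src i, s₁ i⟩ = d hx.choose := dif_pos hx
    rw [hvx]
    rcases hx.choose_spec with e | e
    · rw [s₁_inj _ _ e]
    · exact absurd e.symm (s₁_ne_s₂ _ _)
  have hv₂ : ∀ i, v ⟨tgt i, s₂ i⟩ = d i := by
    intro i
    have hx : ∃ j, (⟨src j, s₁ j⟩ : Σ c, Place k (Fk c)) = ⟨tgt i, s₂ i⟩ ∨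
        (⟨tgt j, s₂ j⟩ : Σ c, Place k (Fk c)) = ⟨tgt i, s₂ i⟩ := ⟨i, Or.inr rfl⟩
    have hvx : v ⟨tgt i, s₂ i⟩ = d hx.choose := dif_pos hx
    rw [hvx]
    rcases hx.choose_spec with e | e
    · exact absurd e (s₁_ne_s₂ _ _)
    · rw [s₂_inj _ _ e]
  -- interpolation on every component
  have hex : ∀ c, ∃ a ∈ riemannRochSpace (R c),
      ∀ Q : ↥(graphRRBranchesAt src tgt s₁ s₂ c), ValAt (Q : Place k (Fk c)) a (v ⟨c, Q⟩) := by
    intro c
    refine exists_interpolation (h c) (fun Q : ↥(graphRRBranchesAt src tgt s₁ s₂ c) => (Q : Place k (Fk c)))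
      Subtype.val_injective (R c) (fun Q => hNR c Q Q.2) ?_ (fun Q => v ⟨c, Q⟩)
    rw [Fintype.card_coe]
    exact hdeg c
  choose a ha hval using hex
  refine ⟨⟨a, ha, fun i => ⟨d i, ?_, ?_⟩⟩, ?_⟩
  · have := hval (src i) ⟨s₁ i, src_mem_graphRRBranchesAt i⟩
    rw [hv₁] at this
    exact this
  · have := hval (tgt i) ⟨s₂ i, tgt_mem_graphRRBranchesAt i⟩
    rw [hv₂] at this
    exact this
  · funext i
    apply graphRRVal_eq_of_valAt₁
    have := hval (src i) ⟨s₁ i, src_mem_graphRRBranchesAt i⟩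
    rw [hv₁] at this
    exact this

/-- **Riemann–Roch on the graph curve**: if all the branch points are different, the divisors
`R c` avoid them and `2 g_c - 2 < deg R_c - #(branches on c)` for every component `c`, then
`dim graphRR = Σ_c (deg R_c + 1 - g_c) - |ι|`. -/
theorem finrank_graphRR (h : ∀ c, IsRRField k (Fk c))
    (s₁_inj : ∀ i j : ι, (⟨src i, s₁ i⟩ : Σ c, Place k (Fk c)) = ⟨src j, s₁ j⟩ → i = j)
    (s₂_inj : ∀ i j : ι, (⟨tgt i, s₂ i⟩ : Σ c, Place k (Fk c)) = ⟨tgt j, s₂ j⟩ → i = j)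
    (s₁_ne_s₂ : ∀ i j : ι, (⟨src i, s₁ i⟩ : Σ c, Place k (Fk c)) ≠ ⟨tgt j, s₂ j⟩)
    (hR₁ : ∀ i, R (src i) (s₁ i) = 0) (hR₂ : ∀ i, R (tgt i) (s₂ i) = 0)
    (hdeg : ∀ c, 2 * (genusFF k (Fk c) : ℤ) - 2 <
      Divisor.degree (R c) - (graphRRBranchesAt src tgt s₁ s₂ c).card) :
    (Module.finrank k (graphRR src tgt s₁ s₂ R) : ℤ) =
      (∑ c, (Divisor.degree (R c) + 1 - (genusFF k (Fk c) : ℤ))) - Fintype.card ι := by
  classical
  haveI := finite_graphRR h src tgt s₁ s₂ R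
  haveI : ∀ c, Module.Finite k
      (riemannRochSpace (R c - sumPlaces (graphRRBranchesAt src tgt s₁ s₂ c))) := fun c =>
    finite_riemannRochSpace (h c) _
  have hsurj := graphRRVal_surjective h s₁_inj s₂_inj s₁_ne_s₂ hR₁ hR₂ hdeg
  have hrank := LinearMap.finrank_range_add_finrank_ker (graphRRVal src tgt s₁ s₂ R)
  rw [LinearMap.range_eq_top.mpr hsurj, finrank_top, ker_graphRRVal hR₁ hR₂,
    LinearMap.finrank_range_of_inj (graphRRIncl_injective hR₁ hR₂),
    Module.finrank_fintype_fun_eq_card, Module.finrank_pi_fintype] at hrank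
  have hell : ∀ c, (Module.finrank k
      (riemannRochSpace (R c - sumPlaces (graphRRBranchesAt src tgt s₁ s₂ c))) : ℤ) =
      Divisor.degree (R c) + 1 - (genusFF k (Fk c) : ℤ) -
        (graphRRBranchesAt src tgt s₁ s₂ c).card := by
    intro c
    have := ell_of_degree_gt (h c)
      (D := R c - sumPlaces (graphRRBranchesAt src tgt s₁ s₂ c))
      (by rw [map_sub, degree_sumPlaces (h c)]; exact hdeg c)
    rw [map_sub, degree_sumPlaces (h c), ell_def] at this
    rw [this]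
    ring
  have hcard : (∑ c, ((graphRRBranchesAt src tgt s₁ s₂ c).card : ℤ)) = 2 * Fintype.card ι := by
    have := sum_card_graphRRBranchesAt (src := src) (tgt := tgt) (s₁ := s₁) (s₂ := s₂)
    rw [card_graphRRBranches s₁_inj s₂_inj s₁_ne_s₂] at this
    exact_mod_cast this
  rw [← hrank]
  push_cast
  rw [Finset.sum_congr rfl (fun c _ => hell c), Finset.sum_sub_distrib, hcard]
  ring

/-- **Riemann–Roch on the graph curve**, with the simpler hypothesis
`2 g_c - 2 + 2 |ι| < deg R_c`. -/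
theorem finrank_graphRR_of_two_mul (h : ∀ c, IsRRField k (Fk c))
    (s₁_inj : ∀ i j : ι, (⟨src i, s₁ i⟩ : Σ c, Place k (Fk c)) = ⟨src j, s₁ j⟩ → i = j)
    (s₂_inj : ∀ i j : ι, (⟨tgt i, s₂ i⟩ : Σ c, Place k (Fk c)) = ⟨tgt j, s₂ j⟩ → i = j)
    (s₁_ne_s₂ : ∀ i j : ι, (⟨src i, s₁ i⟩ : Σ c, Place k (Fk c)) ≠ ⟨tgt j, s₂ j⟩)
    (hR₁ : ∀ i, R (src i) (s₁ i) = 0) (hR₂ : ∀ i, R (tgt i) (s₂ i) = 0)
    (hdeg : ∀ c, 2 * (genusFF k (Fk c) : ℤ) - 2 + 2 * Fintype.card ι < Divisor.degree (R c)) :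
    (Module.finrank k (graphRR src tgt s₁ s₂ R) : ℤ) =
      (∑ c, (Divisor.degree (R c) + 1 - (genusFF k (Fk c) : ℤ))) - Fintype.card ι := by
  refine finrank_graphRR h s₁_inj s₂_inj s₁_ne_s₂ hR₁ hR₂ fun c => ?_
  have h1 : ((graphRRBranchesAt src tgt s₁ s₂ c).card : ℤ) ≤ 2 * Fintype.card ι := by
    exact_mod_cast card_graphRRBranchesAt_le (src := src) (tgt := tgt) (s₁ := s₁) (s₂ := s₂) c
  have h2 := hdeg c
  omega

/-- The unconditional upper bound
`dim graphRR ≤ Σ_c ℓ(R_c - branches on c) + |ι|`. -/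
theorem finrank_graphRR_le (h : ∀ c, IsRRField k (Fk c))
    (hR₁ : ∀ i, R (src i) (s₁ i) = 0) (hR₂ : ∀ i, R (tgt i) (s₂ i) = 0) :
    Module.finrank k (graphRR src tgt s₁ s₂ R) ≤
      (∑ c, ell (R c - sumPlaces (graphRRBranchesAt src tgt s₁ s₂ c))) + Fintype.card ι := by
  classical
  haveI := finite_graphRR h src tgt s₁ s₂ R
  haveI : ∀ c, Module.Finite k
      (riemannRochSpace (R c - sumPlaces (graphRRBranchesAt src tgt s₁ s₂ c))) := fun c =>
    finite_riemannRochSpace (h c) _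
  have hrank := LinearMap.finrank_range_add_finrank_ker (graphRRVal src tgt s₁ s₂ R)
  rw [ker_graphRRVal hR₁ hR₂,
    LinearMap.finrank_range_of_inj (graphRRIncl_injective hR₁ hR₂),
    Module.finrank_pi_fintype] at hrank
  have h1 : Module.finrank k (LinearMap.range (graphRRVal src tgt s₁ s₂ R)) ≤
      Fintype.card ι := by
    have := Submodule.finrank_le (LinearMap.range (graphRRVal src tgt s₁ s₂ R))
    rwa [Module.finrank_fintype_fun_eq_card] at this
  have h2 : (∑ c, Module.finrank k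
      (riemannRochSpace (R c - sumPlaces (graphRRBranchesAt src tgt s₁ s₂ c)))) =
      ∑ c, ell (R c - sumPlaces (graphRRBranchesAt src tgt s₁ s₂ c)) := rfl
  omega

end Dim

end Fermat.Agent.BadRedG
end
end MergeWrap_Lib_BadRed_Graph_RRGraph
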