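import Mathlib
import Fermat.Agent.MUL.Lib.BadRed.Mod.SeedOfU
import Fermat.Agent.MUL.Lib.BadRed.Graph.Seed
import Fermat.Agent.MUL.Lib.BadRed.Graph.Deuring.FIG
import Fermat.Agent.MUL.Lib.FFL.FB.UnitDefs

section MergeWrap_Lib_BadRed_Graph_GraphSeedOfX -- from Lib/BadRed/Graph/GraphSeedOfX.lean

set_option autoImplicit false

/-!
# Cluster G, SEED-X (helper7): the graph seed attached to one function `x`

Port of cluster T's `Mod/SeedPoles.lean` (`seed_pole_bounds`) and `Mod/SeedOfX.lean` (`seedOfX`) to a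
family `κ` of components.

`C : GraphCore K F k κ Fk ι`, `k` infinite, `x ∈ ⋂_c O_c` with
`deg (x)_∞ ≤ ∑_c deg (red_c x)_∞`.  With `D₀ = (x)_∞`, `R c = (red_c x)_∞`:

* `graph_pole_bounds_of_test` : the degree squeeze for one test function `g`;
* `GraphCore.seed_pole_bounds` : `red_c (L(m D₀) ∩ ⋂ O_c) ⊆ L(m R_c)` for every `c`
  (the fundamental inequality `GraphCore.fi_degree_le` applied to `g = a x^m + f`, `a` of generic
  residue);
* `GraphCore.degree_poleDiv_eq` : `∑_c deg R_c = deg D₀`;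
* `GraphCore.mem_graphRR_of_node` : the `seed` field from the labelled NODE condition;
* `GraphCore.graphSeedOfX` : the `GraphSeed` itself.
-/

noncomputable section

open AlgebraicCurve Fermat.Agent.RR Fermat.Agent.Deuring

namespace Fermat.Agent.BadRedG

open Fermat.Agent.BadRed Fermat.Agent.BadRed.SeedPoles

variable {K F k : Type*} [Field K] [Field F] [Algebra K F] [Field k]
  {κ : Type*} {Fk : κ → Type*} [∀ c, Field (Fk c)] [∀ c, Algebra k (Fk c)] {ι : Type*}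

/-- the core of the argument: ONE test function `g` with `(g)_∞ ≤ m (x)_∞`,
`(g_c)_∞ ≥ max (m (x_c)_∞) ((f_c)_∞)` for every `c`, and (FI) for `g`. -/
theorem graph_pole_bounds_of_test [Fintype κ] (h : IsRRField K F)
    (hk : ∀ c, IsRRField k (Fk c)) {x g : F} {xr fr gr : ∀ c, Fk c} (m : ℕ)
    (hFI : ∑ c, Divisor.degree (poleDiv (hk c) (gr c)) ≤ Divisor.degree (poleDiv h g))
    (hdeg : Divisor.degree (poleDiv h x) ≤ ∑ c, Divisor.degree (poleDiv (hk c) (xr c)))
    (hg : g ∈ riemannRochSpace (m • poleDiv h x))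
    (hgc : ∀ c Q, max ((m • poleDiv (hk c) (xr c)) Q) (poleDiv (hk c) (fr c) Q) ≤
      poleDiv (hk c) (gr c) Q) :
    ∀ c, fr c ∈ riemannRochSpace (m • poleDiv (hk c) (xr c)) := by
  classical
  have hD0 : 0 ≤ m • poleDiv h x := nsmul_nonneg (poleDiv_nonneg h x) m
  have hgle : poleDiv h g ≤ m • poleDiv h x := poleDiv_le_of_mem h hD0 hg
  have hdg : Divisor.degree (poleDiv h g) ≤ m * Divisor.degree (poleDiv h x) := by
    have := degree_mono h hgle
    rwa [map_nsmul, nsmul_eq_mul] at this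
  have hE : ∀ c, (m • poleDiv (hk c) (xr c)) ⊔ poleDiv (hk c) (fr c) ≤ poleDiv (hk c) (gr c) := by
    intro c
    rw [Finsupp.le_def]
    intro Q
    rw [Finsupp.sup_apply]
    exact hgc c Q
  have hd : ∀ c, Divisor.degree ((m • poleDiv (hk c) (xr c)) ⊔ poleDiv (hk c) (fr c)) ≤
      Divisor.degree (poleDiv (hk c) (gr c)) := fun c => degree_mono (hk c) (hE c)
  have hl : ∀ c, Divisor.degree (m • poleDiv (hk c) (xr c)) ≤
      Divisor.degree ((m • poleDiv (hk c) (xr c)) ⊔ poleDiv (hk c) (fr c)) := fun c =>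
    degree_mono (hk c) le_sup_left
  have hm : ∀ c, Divisor.degree (m • poleDiv (hk c) (xr c)) =
      m * Divisor.degree (poleDiv (hk c) (xr c)) := fun c => by
    rw [map_nsmul, nsmul_eq_mul]
  have hmul : (m : ℤ) * Divisor.degree (poleDiv h x) ≤
      m * ∑ c, Divisor.degree (poleDiv (hk c) (xr c)) :=
    mul_le_mul_of_nonneg_left hdeg (Int.natCast_nonneg m)
  -- the sum of the nonnegative defects is `≤ 0`
  have hsum : ∑ c, (Divisor.degree ((m • poleDiv (hk c) (xr c)) ⊔ poleDiv (hk c) (fr c)) -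
      Divisor.degree (m • poleDiv (hk c) (xr c))) ≤ 0 := by
    rw [Finset.sum_sub_distrib]
    have h1 : ∑ c, Divisor.degree ((m • poleDiv (hk c) (xr c)) ⊔ poleDiv (hk c) (fr c)) ≤
        ∑ c, Divisor.degree (poleDiv (hk c) (gr c)) :=
      Finset.sum_le_sum fun c _ => hd c
    have h2 : ∑ c, Divisor.degree (m • poleDiv (hk c) (xr c)) =
        m * ∑ c, Divisor.degree (poleDiv (hk c) (xr c)) := by
      rw [Finset.mul_sum]
      exact Finset.sum_congr rfl fun c _ => hm c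
    rw [h2]
    linarith
  have hzero : ∀ c, Divisor.degree ((m • poleDiv (hk c) (xr c)) ⊔ poleDiv (hk c) (fr c)) -
      Divisor.degree (m • poleDiv (hk c) (xr c)) = 0 := by
    have hnn : ∀ c ∈ (Finset.univ : Finset κ),
        0 ≤ Divisor.degree ((m • poleDiv (hk c) (xr c)) ⊔ poleDiv (hk c) (fr c)) -
          Divisor.degree (m • poleDiv (hk c) (xr c)) := fun c _ => sub_nonneg.mpr (hl c)
    have h0 := le_antisymm hsum (Finset.sum_nonneg hnn)
    intro c
    exact (Finset.sum_eq_zero_iff_of_nonneg hnn).mp h0 c (Finset.mem_univ c)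
  intro c
  have e : Divisor.degree (m • poleDiv (hk c) (xr c)) =
      Divisor.degree ((m • poleDiv (hk c) (xr c)) ⊔ poleDiv (hk c) (fr c)) := by
    have := hzero c
    omega
  have E := eq_of_le_of_degree_eq (hk c) le_sup_left e
  apply mem_of_poleDiv_le (hk c)
  rw [E]
  exact le_sup_right

/-- **SEED-X, the pole bounds of the seed**: for `x ∈ ⋂ O_c` with
`deg (x)_∞ ≤ ∑_c deg (red_c x)_∞` and `f ∈ L(m (x)_∞) ∩ ⋂ O_c`:
`red_c f ∈ L(m (red_c x)_∞)` for every `c`. -/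
theorem GraphCore.seed_pole_bounds [Fintype κ] [Infinite k] (C : GraphCore K F k κ Fk ι)
    (hF : IsRRField K F) {x : F} (hx : ∀ c, x ∈ (C.S c).Ov)
    (hdeg : Divisor.degree (poleDiv hF x) ≤
      ∑ c, Divisor.degree (poleDiv (C.S c).hFk ((C.S c).red x)))
    (m : ℕ) {f : F} (hf : f ∈ riemannRochSpace (m • poleDiv hF x))
    (hfO : ∀ c, f ∈ (C.S c).Ov) (c : κ) :
    (C.S c).red f ∈ riemannRochSpace (m • poleDiv (C.S c).hFk ((C.S c).red x)) := by
  classical
  choose B hB using fun c' => exists_finite_bad (C.S c').hFk (((C.S c').red x) ^ m)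
    ((C.S c').red f)
  obtain ⟨abar, habar⟩ := Infinite.exists_notMem_finset (Finset.univ.biUnion B)
  have habar' : ∀ c', abar ∉ B c' := fun c' hmem =>
    habar (Finset.mem_biUnion.mpr ⟨c', Finset.mem_univ _, hmem⟩)
  obtain ⟨⟨a, ha₀⟩, ha⟩ := (C.S c).res_surj abar
  have haA : ∀ c', a ∈ (C.S c').A := fun c' => C.mem_A ha₀ c'
  have hres : ∀ c', (C.S c').res ⟨a, haA c'⟩ = abar := fun c' => by
    rw [C.res_eq c' c a (haA c') ha₀, ha]
  have hgO : ∀ c', a • x ^ m + f ∈ (C.S c').Ov := fun c' =>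
    (red_smul_pow_add (C.S c') (haA c') (hx c') (hfO c') m).1
  have hgr : ∀ c', (C.S c').red (a • x ^ m + f) = abar • ((C.S c').red x) ^ m + (C.S c').red f :=
    fun c' => by
      rw [(red_smul_pow_add (C.S c') (haA c') (hx c') (hfO c') m).2, hres c']
  have hFI := C.fi_degree_le c hgO
  refine graph_pole_bounds_of_test hF (fun c' => (C.S c').hFk) (x := x) (g := a • x ^ m + f)
    (xr := fun c' => (C.S c').red x) (fr := fun c' => (C.S c').red f)
    (gr := fun c' => (C.S c').red (a • x ^ m + f)) m hFI hdeg ?_ ?_ c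
  · exact add_mem (Submodule.smul_mem _ a (pow_mem_riemannRochSpace hF x m)) hf
  · intro c' Q
    show max ((m • poleDiv (C.S c').hFk ((C.S c').red x)) Q)
      (poleDiv (C.S c').hFk ((C.S c').red f) Q) ≤
        poleDiv (C.S c').hFk ((C.S c').red (a • x ^ m + f)) Q
    rw [hgr c', ← poleDiv_pow]
    exact hB c' abar (habar' c') Q

/-- (FI) is an equality for `x` as soon as `≥` holds. -/
theorem GraphCore.degree_poleDiv_eq [Fintype κ] [Infinite k] (C : GraphCore K F k κ Fk ι)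
    (c₀ : κ) {x : F} (hx : ∀ c, x ∈ (C.S c).Ov)
    (hdeg : Divisor.degree (poleDiv (C.S c₀).hF x) ≤
      ∑ c, Divisor.degree (poleDiv (C.S c).hFk ((C.S c).red x))) :
    ∑ c, Divisor.degree (poleDiv (C.S c).hFk ((C.S c).red x)) =
      Divisor.degree (poleDiv (C.S c₀).hF x) :=
  le_antisymm (C.fi_degree_le c₀ hx) hdeg

/-- the `seed` field of `GraphSeed` for `D₀ = (x)_∞`, `R c = (red_c x)_∞`, from the labelled NODE
condition. -/
theorem GraphCore.mem_graphRR_of_node [Fintype κ] [Infinite k] (C : GraphCore K F k κ Fk ι)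
    (hF : IsRRField K F) {x : F} (hx : ∀ c, x ∈ (C.S c).Ov)
    (hdeg : Divisor.degree (poleDiv hF x) ≤
      ∑ c, Divisor.degree (poleDiv (C.S c).hFk ((C.S c).red x)))
    (m : ℕ) {f : F} (hf : f ∈ riemannRochSpace (m • poleDiv hF x))
    (hfO : ∀ c, f ∈ (C.S c).Ov)
    (hnode : ∀ i, ∃ a : k, ValAt (C.s₁ i) ((C.S (C.src i)).red f) a ∧
      ValAt (C.s₂ i) ((C.S (C.tgt i)).red f) a) :
    (fun c => (C.S c).red f) ∈
      graphRR C.src C.tgt C.s₁ C.s₂ (fun c => m • poleDiv (C.S c).hFk ((C.S c).red x)) :=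
  ⟨fun c => C.seed_pole_bounds hF hx hdeg m hf hfO c, hnode⟩

/-- **SEED-X: the graph seed attached to `x`**: `D₀ = (x)_∞`, `R c = (red_c x)_∞`. -/
def GraphCore.graphSeedOfX [Fintype κ] [Fintype ι] [Infinite k] (C : GraphCore K F k κ Fk ι)
    (c₀ : κ) (x : F) (hx : ∀ c, x ∈ (C.S c).Ov)
    (hpos : ∀ c, 0 < Divisor.degree (poleDiv (C.S c).hFk ((C.S c).red x)))
    (hn₁ : ∀ i, 0 ≤ (C.s₁ i).ord ((C.S (C.src i)).red x))
    (hn₂ : ∀ i, 0 ≤ (C.s₂ i).ord ((C.S (C.tgt i)).red x))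
    (hdeg : Divisor.degree (poleDiv (C.S c₀).hF x) ≤
      ∑ c, Divisor.degree (poleDiv (C.S c).hFk ((C.S c).red x)))
    (hnode : ∀ (m : ℕ) (f : F), f ∈ riemannRochSpace (m • poleDiv (C.S c₀).hF x) →
      (∀ c, f ∈ (C.S c).Ov) →
      ∀ i, ∃ a : k, ValAt (C.s₁ i) ((C.S (C.src i)).red f) a ∧
        ValAt (C.s₂ i) ((C.S (C.tgt i)).red f) a)
    (hgenus : genusFF K F + Fintype.card κ ≤
      (∑ c, genusFF k (Fk c)) + Fintype.card ι + 1) :
    GraphSeed K F k κ Fk ι where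
  toGraphCore := C
  D₀ := poleDiv (C.S c₀).hF x
  R := fun c => poleDiv (C.S c).hFk ((C.S c).red x)
  D₀_nonneg := poleDiv_nonneg _ _
  R_nonneg := fun _ => poleDiv_nonneg _ _
  R_pos := hpos
  R_node₁ := fun i => poleDiv_eq_zero_of_ord_nonneg _ (hn₁ i)
  R_node₂ := fun i => poleDiv_eq_zero_of_ord_nonneg _ (hn₂ i)
  deg_eq := C.degree_poleDiv_eq c₀ hx hdeg
  seed := fun m f hf hfO =>
    C.mem_graphRR_of_node (C.S c₀).hF hx hdeg m hf hfO (hnode m f hf hfO)
  genus_le := hgenus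

section Simp

variable [Fintype κ] [Fintype ι] [Infinite k] (C : GraphCore K F k κ Fk ι)
    (c₀ : κ) (x : F) (hx : ∀ c, x ∈ (C.S c).Ov)
    (hpos : ∀ c, 0 < Divisor.degree (poleDiv (C.S c).hFk ((C.S c).red x)))
    (hn₁ : ∀ i, 0 ≤ (C.s₁ i).ord ((C.S (C.src i)).red x))
    (hn₂ : ∀ i, 0 ≤ (C.s₂ i).ord ((C.S (C.tgt i)).red x))
    (hdeg : Divisor.degree (poleDiv (C.S c₀).hF x) ≤
      ∑ c, Divisor.degree (poleDiv (C.S c).hFk ((C.S c).red x)))
    (hnode : ∀ (m : ℕ) (f : F), f ∈ riemannRochSpace (m • poleDiv (C.S c₀).hF x) →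
      (∀ c, f ∈ (C.S c).Ov) →
      ∀ i, ∃ a : k, ValAt (C.s₁ i) ((C.S (C.src i)).red f) a ∧
        ValAt (C.s₂ i) ((C.S (C.tgt i)).red f) a)
    (hgenus : genusFF K F + Fintype.card κ ≤
      (∑ c, genusFF k (Fk c)) + Fintype.card ι + 1)

@[simp] theorem GraphCore.graphSeedOfX_toGraphCore :
    (C.graphSeedOfX c₀ x hx hpos hn₁ hn₂ hdeg hnode hgenus).toGraphCore = C := rfl

@[simp] theorem GraphCore.graphSeedOfX_D₀ :
    (C.graphSeedOfX c₀ x hx hpos hn₁ hn₂ hdeg hnode hgenus).D₀ = poleDiv (C.S c₀).hF x := rfl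

@[simp] theorem GraphCore.graphSeedOfX_R (c : κ) :
    (C.graphSeedOfX c₀ x hx hpos hn₁ hn₂ hdeg hnode hgenus).R c =
      poleDiv (C.S c).hFk ((C.S c).red x) := rfl

end Simp

end Fermat.Agent.BadRedG
end
end MergeWrap_Lib_BadRed_Graph_GraphSeedOfX
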