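import Mathlib
import Fermat.Agent.MUL.Lib.BadRed.Mod.SeedOfU
import Fermat.Agent.MUL.Lib.FFL.Unr

section MergeWrap_Lib_BadRed_Graph_MultiNodeDefs -- from Lib/BadRed/Graph/MultiNodeDefs.lean

set_option autoImplicit false

/-!
# Cluster G (S36), seat G-NODE: the MULTI-EXTENSION NODE THEOREM, definitions and statements

Generalisation of cluster T's `SeedNode.sn_node_values` (two constant reductions, each the UNIQUE
extension of the Gauss valuation of `K(u)` resp. `K(ϖ / u)`) to two finite families of constant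
reductions: `V₁` = ALL the extensions of the Gauss valuation of `K(u)` to `F`, `V₂` = ALL the
extensions of the Gauss valuation of `K(ϖ / u)`.  "All" is expressed by the degree inequalities
`[F : K(u)] ≤ ∑_{c ∈ V₁} [Fk c : k(ū_c)]` and the same for `V₂`.

For `f` integral at all `c ∈ V₁ ∪ V₂` whose poles are zeros or poles of `u`:
* the reductions `red_c f` are regular off the poles of `ū_c` (`c ∈ V₁`) resp. `ū'_c` (`c ∈ V₂`);
* for every `a : k` the number of zeros of the `ū_c` (`c ∈ V₁`), counted with the multiplicity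
  `ord_Q ū_c`, at which `red_c f` takes the value `a` equals the corresponding number for the
  `ū'_c` (`c ∈ V₂`): the MULTISETS of the values at the two sides of the "node `u = 0`" agree.

Nothing here mentions modular curves.
-/

noncomputable section

open AlgebraicCurve Polynomial IntermediateField

namespace Fermat.Agent.BadRedG

open Fermat.Agent.RR Fermat.Agent.Deuring Fermat.Agent.BadRed Fermat.Agent.BadRed.SeedNode

variable {K F k : Type*} [Field K] [Field F] [Algebra K F] [Field k]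
  {κ : Type*} {Fk : κ → Type*} [∀ c, Field (Fk c)] [∀ c, Algebra k (Fk c)]

open Classical in
/-- The weighted count: the sum of `ord_Q x` over the zeros `Q` of `x` at which `g` takes the
value `a`. -/
def mnCount {E : Type*} [Field E] [Algebra k E] (h : IsRRField k E) (x g : E) (a : k) : ℤ :=
  ∑ Q ∈ (divOf h x).support, if 0 < Q.ord x ∧ ValAt Q g a then Q.ord x else 0

/-- The data of the multi-extension node theorem. -/
structure MNData (S : ∀ c : κ, ValSetup K F k (Fk c)) (V₁ V₂ : Finset κ) (u : F) (ϖ : K) :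
    Prop where
  A_eq : ∀ c c' : κ, (S c).A = (S c').A
  res_eq : ∀ (c c' : κ) (x : K) (h : x ∈ (S c).A) (h' : x ∈ (S c').A),
    (S c).res ⟨x, h⟩ = (S c').res ⟨x, h'⟩
  /-- the valuation rings are pairwise incomparable -/
  indep : ∀ c c' : κ, c ≠ c' → ¬ (S c).Ov ≤ (S c').Ov
  ne₁ : V₁.Nonempty
  ne₂ : V₂.Nonempty
  ϖ_ne : ϖ ≠ 0
  ϖ_mem : ∀ c, ϖ ∈ (S c).A
  ϖ_res : ∀ (c : κ) (h : ϖ ∈ (S c).A), (S c).res ⟨ϖ, h⟩ = 0
  u_mem : ∀ c ∈ V₁, u ∈ (S c).Ov
  u_tr : ∀ c ∈ V₁, Transcendental k ((S c).red u)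
  u'_mem : ∀ c ∈ V₂, algebraMap K F ϖ / u ∈ (S c).Ov
  u'_tr : ∀ c ∈ V₂, Transcendental k ((S c).red (algebraMap K F ϖ / u))
  /-- `V₁` is the set of ALL extensions of the Gauss valuation of `K(u)` -/
  deg₁ : Module.finrank K⟮u⟯ F ≤ ∑ c ∈ V₁, Module.finrank k⟮(S c).red u⟯ (Fk c)
  /-- `V₂` is the set of ALL extensions of the Gauss valuation of `K(ϖ / u)` -/
  deg₂ : Module.finrank K⟮u⟯ F ≤
    ∑ c ∈ V₂, Module.finrank k⟮(S c).red (algebraMap K F ϖ / u)⟯ (Fk c)

/-- **The multi-extension node theorem** (statement). -/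
def MultiNodeStatement (S : ∀ c : κ, ValSetup K F k (Fk c)) (V₁ V₂ : Finset κ) (u : F)
    (ϖ : K) : Prop :=
  MNData S V₁ V₂ u ϖ → ∀ f : F, (∀ c ∈ V₁, f ∈ (S c).Ov) → (∀ c ∈ V₂, f ∈ (S c).Ov) →
    (∀ P : Place K F, P.ord f < 0 → P.ord u ≠ 0) →
    (∀ c ∈ V₁, ∀ Q : Place k (Fk c), 0 ≤ Q.ord ((S c).red u) → 0 ≤ Q.ord ((S c).red f)) ∧
    (∀ c ∈ V₂, ∀ Q : Place k (Fk c),
      0 ≤ Q.ord ((S c).red (algebraMap K F ϖ / u)) → 0 ≤ Q.ord ((S c).red f)) ∧
    ∀ a : k, ∑ c ∈ V₁, mnCount (S c).hFk ((S c).red u) ((S c).red f) a =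
      ∑ c ∈ V₂, mnCount (S c).hFk ((S c).red (algebraMap K F ϖ / u)) ((S c).red f) a

/-- **The refined root formula** (statement; one function field `E / k`, nothing else):
if `Φ(x, X)` is the characteristic polynomial of `g` on `E / k(x)`, then the multiplicity of `a`
as a root of `Φ(0, X)` is the number of zeros of `x`, counted with multiplicity, at which `g`
takes the value `a`:  `Φ(0, X) = ∏_{Q, x(Q) = 0} (X - g(Q)) ^ (ord_Q x)`. -/
def RootCountStatement (k E : Type*) [Field k] [Field E] [Algebra k E] : Prop :=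
  ∀ (h : IsRRField k E) (x : E), Transcendental k x → ∀ [FiniteDimensional k⟮x⟯ E] (g : E)
    (Φ : Polynomial (Polynomial k)),
    Φ.map (toAdj x) = LinearMap.charpoly (LinearMap.mulLeft k⟮x⟯ g) → ∀ a : k,
      (((Φ.map (Polynomial.evalRingHom 0)).rootMultiplicity a : ℕ) : ℤ) = mnCount h x g a

end Fermat.Agent.BadRedG
end
end MergeWrap_Lib_BadRed_Graph_MultiNodeDefs
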