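import Mathlib
import Fermat.Agent.MUL.Lib.BadRed.Graph.MultiNodeDefs
import Fermat.Agent.MUL.Lib.RR.Hurwitz.Count
import Fermat.Agent.MUL.Orig.S27.Lift.ValAdapt

section MergeWrap_Lib_BadRed_Graph_RootCountCore -- from Lib/BadRed/Graph/RootCountCore.lean

set_option autoImplicit false
set_option linter.unusedSectionVars false
set_option linter.style.haveILetI false

noncomputable section

open AlgebraicCurve Polynomial IntermediateField

namespace Fermat.Agent.BadRedG

open Fermat.Agent.RR Fermat.Agent.RRHur Fermat.Agent.BadRed Fermat.Agent.BadRed.SeedNode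

namespace RootCount

variable {k E : Type*} [Field k] [Field E] [Algebra k E]

/-! ### the submodule `x R` -/

/-- the functions `x r`, `r` without poles off the poles of `x` -/
def xR (x : E) : Submodule k E where
  carrier := {f | ∃ r, IntAway (K := k) x r ∧ f = x * r}
  zero_mem' := ⟨0, IntAway.zero x, by rw [mul_zero]⟩
  add_mem' := by
    rintro f₁ f₂ ⟨r₁, hr₁, rfl⟩ ⟨r₂, hr₂, rfl⟩
    exact ⟨r₁ + r₂, hr₁.add hr₂, by ring⟩
  smul_mem' := by
    rintro c f ⟨r, hr, rfl⟩
    refine ⟨algebraMap k E c * r, ?_, ?_⟩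
    · exact IntAway.mul (fun v _ => v.adicValuation_algebraMap_le_one c) hr
    · rw [Algebra.smul_def]
      ring

theorem mem_xR {x f : E} : f ∈ xR (k := k) x ↔ ∃ r, IntAway (K := k) x r ∧ f = x * r := Iff.rfl

theorem mul_mem_xR {x f s : E} (hs : IntAway (K := k) x s) (hf : f ∈ xR (k := k) x) :
    s * f ∈ xR (k := k) x := by
  obtain ⟨r, hr, rfl⟩ := hf
  exact ⟨s * r, hs.mul hr, by ring⟩

/-- the functions of `x R` vanish at the zeros of `x` to the order of `x` -/
theorem adicValuation_le_of_mem_xR {x f : E} (hf : f ∈ xR (k := k) x) (Q : Place k E)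
    (hQ : Q.adicValuation x ≤ 1) : Q.adicValuation f ≤ Q.adicValuation x := by
  obtain ⟨r, hr, rfl⟩ := hf
  rw [map_mul]
  exact mul_le_of_le_one_right' (hr Q hQ)

/-- conversely -/
theorem mem_xR_of_adicValuation_le {x f : E} (hx0 : x ≠ 0) (hf : IntAway (K := k) x f)
    (h : ∀ Q : Place k E, Q.adicValuation x < 1 → Q.adicValuation f ≤ Q.adicValuation x) :
    f ∈ xR (k := k) x := by
  refine ⟨f / x, ?_, by field_simp⟩
  intro Q hQ
  rw [map_div₀]
  have hx0' : Q.adicValuation x ≠ 0 := (Valuation.ne_zero_iff _).mpr hx0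
  rcases lt_or_eq_of_le hQ with hlt | heq
  · exact (div_le_one₀ (zero_lt_iff.mpr hx0')).mpr (h Q hlt)
  · rw [heq, div_one]
    exact hf Q hQ

/-! ### the linear combinations of the basis with constant coefficients -/

section Iota

variable {x : E} [FiniteDimensional k⟮x⟯ E] {n : ℕ} (b : Module.Basis (Fin n) k⟮x⟯ E)

/-- `w ↦ ∑ w_i b_i` -/
def iota : (Fin n → k) →ₗ[k] E := Fintype.linearCombination k (fun i => b i)

theorem iota_apply (w : Fin n → k) : iota b w = ∑ i, algebraMap k E (w i) * b i := by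
  simp only [iota, Fintype.linearCombination_apply, Algebra.smul_def]

theorem iota_eq_sum_toAdj (w : Fin n → k) : iota b w = ∑ i, toAdj x (C (w i)) • b i := by
  rw [iota_apply]
  refine Finset.sum_congr rfl fun i _ => ?_
  rw [smul_toAdj, aeval_C]

theorem intAway_iota (hb : ∀ i, IntAway (K := k) x (b i)) (w : Fin n → k) :
    IntAway (K := k) x (iota b w) := by
  rw [iota_apply]
  exact IntAway.sum _ _
    (fun i _ => IntAway.mul (fun v _ => v.adicValuation_algebraMap_le_one _) (hb i))

/-- uniqueness of the polynomial coordinates -/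
theorem coord_unique (hx : Transcendental k x) {p q : Fin n → k[X]}
    (h : ∑ i, toAdj x (p i) • b i = ∑ i, toAdj x (q i) • b i) : p = q := by
  funext i
  apply toAdj_injective hx
  have hp := b.repr_sum_self (fun i => toAdj x (p i))
  have hq := b.repr_sum_self (fun i => toAdj x (q i))
  rw [h] at hp
  exact congrFun (hp.symm.trans hq) i

/-- a combination with constant coefficients which lies in `x R` is zero -/
theorem eq_zero_of_iota_mem_xR (hx : Transcendental k x)
    (hint : ∀ f : E, IntAway (K := k) x f → ∃ a : Fin n → k[X], f = ∑ i, toAdj x (a i) • b i)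
    {w : Fin n → k} (h : iota b w ∈ xR (k := k) x) : w = 0 := by
  obtain ⟨r, hr, hxr⟩ := h
  obtain ⟨a, ha⟩ := hint r hr
  have h1 : ∑ i, toAdj x (C (w i)) • b i = ∑ i, toAdj x (X * a i) • b i := by
    rw [← iota_eq_sum_toAdj, hxr, ha, Finset.mul_sum]
    refine Finset.sum_congr rfl fun i _ => ?_
    rw [smul_toAdj, smul_toAdj, map_mul, aeval_X]
    ring
  have h2 := coord_unique b hx h1
  funext i
  have h3 := congrArg (fun p : k[X] => p.coeff 0) (congrFun h2 i)
  simpa using h3

theorem iota_injective (hx : Transcendental k x)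
    (hint : ∀ f : E, IntAway (K := k) x f → ∃ a : Fin n → k[X], f = ∑ i, toAdj x (a i) • b i) :
    Function.Injective (iota b) := by
  rw [← LinearMap.ker_eq_bot, LinearMap.ker_eq_bot']
  intro w hw
  apply eq_zero_of_iota_mem_xR b hx hint
  rw [hw]
  exact Submodule.zero_mem _

/-- multiplication by `g` on `R / x R` is given by the matrix `m(0)` -/
theorem mul_iota_sub_mem (hb : ∀ i, IntAway (K := k) x (b i)) (g : E)
    (m : Matrix (Fin n) (Fin n) k[X]) (hm : ∀ j, g * b j = ∑ i, toAdj x (m i j) • b i)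
    (w : Fin n → k) :
    g * iota b w - iota b (Matrix.toLin' (m.map (Polynomial.evalRingHom 0)) w)
      ∈ xR (k := k) x := by
  -- the case of a basis vector
  have key : ∀ j, g * b j - ∑ i, algebraMap k E ((m i j).eval 0) * b i ∈ xR (k := k) x := by
    intro j
    refine ⟨∑ i, Polynomial.aeval x (m i j).divX * b i, ?_, ?_⟩
    · exact IntAway.sum _ _ (fun i _ => IntAway.mul (intAway_aeval x _) (hb i))
    · rw [hm j, ← Finset.sum_sub_distrib, Finset.mul_sum]
      refine Finset.sum_congr rfl fun i _ => ?_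
      rw [smul_toAdj]
      have h1 : Polynomial.aeval x (m i j)
          = Polynomial.aeval x (m i j).divX * x + algebraMap k E ((m i j).eval 0) := by
        conv_lhs => rw [← Polynomial.divX_mul_X_add (m i j)]
        rw [map_add, map_mul, aeval_X, aeval_C, Polynomial.coeff_zero_eq_eval_zero]
      rw [h1]
      ring
  have h2 : g * iota b w - iota b (Matrix.toLin' (m.map (Polynomial.evalRingHom 0)) w)
      = ∑ j, w j • (g * b j - ∑ i, algebraMap k E ((m i j).eval 0) * b i) := by
    rw [iota_apply, iota_apply, Finset.mul_sum]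
    simp only [Matrix.toLin'_apply, Matrix.mulVec, dotProduct, Matrix.map_apply,
      Polynomial.coe_evalRingHom, map_sum, map_mul, Finset.sum_mul, Algebra.smul_def, mul_sub,
      Finset.mul_sum, Finset.sum_sub_distrib]
    congr 1
    · refine Finset.sum_congr rfl fun j _ => ?_
      ring
    · rw [Finset.sum_comm]
      refine Finset.sum_congr rfl fun j _ => Finset.sum_congr rfl fun i _ => ?_
      ring
  rw [h2]
  exact Submodule.sum_mem _ fun j _ => Submodule.smul_mem _ _ (key j)

/-- the same for the powers of `g - a` -/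
theorem pow_mul_iota_sub_mem (hb : ∀ i, IntAway (K := k) x (b i)) (g : E)
    (hg : IntAway (K := k) x g)
    (m : Matrix (Fin n) (Fin n) k[X]) (hm : ∀ j, g * b j = ∑ i, toAdj x (m i j) • b i)
    (a : k) (N : ℕ) (w : Fin n → k) :
    (g - algebraMap k E a) ^ N * iota b w
      - iota b (((Matrix.toLin' (m.map (Polynomial.evalRingHom 0)) - a • 1) ^ N) w)
      ∈ xR (k := k) x := by
  have hga : IntAway (K := k) x (g - algebraMap k E a) :=
    hg.sub (fun v _ => v.adicValuation_algebraMap_le_one a)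
  induction N generalizing w with
  | zero =>
    simp only [pow_zero, one_mul, Module.End.one_apply, sub_self]
    exact Submodule.zero_mem _
  | succ N ih =>
    generalize hA : (Matrix.toLin' (m.map (Polynomial.evalRingHom 0)) :
      Module.End k (Fin n → k)) = A at ih ⊢
    have hψv : ∀ v, iota b ((A - a • 1) v) = iota b (A v) - algebraMap k E a * iota b v := by
      intro v
      rw [LinearMap.sub_apply, LinearMap.smul_apply, Module.End.one_apply, map_sub, map_smul,
        Algebra.smul_def]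
    have e1 : ((A - a • 1) ^ (N + 1)) w = (A - a • 1) (((A - a • 1) ^ N) w) := by
      rw [pow_succ', Module.End.mul_apply]
    have e2 : (g - algebraMap k E a) ^ (N + 1) * iota b w - iota b (((A - a • 1) ^ (N + 1)) w)
        = (g - algebraMap k E a)
            * ((g - algebraMap k E a) ^ N * iota b w - iota b (((A - a • 1) ^ N) w))
          + (g * iota b (((A - a • 1) ^ N) w) - iota b (A (((A - a • 1) ^ N) w))) := by
      rw [e1, hψv]
      ring
    rw [e2]
    refine Submodule.add_mem _ (mul_mem_xR hga (ih w)) ?_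
    rw [← hA]
    exact mul_iota_sub_mem b hb g m hm _

end Iota

/-! ### the dimension bound -/

section Core

variable {x : E} [FiniteDimensional k⟮x⟯ E] {n : ℕ} (b : Module.Basis (Fin n) k⟮x⟯ E)

open WithZero in
/-- **the dimension bound**: `Z₁ + Z₂ ≥ (x)₀` supported off the poles of `x`, `W` a space of
vectors `w` such that `ι w` vanishes along `Z₁`.  Then `dim W ≤ deg Z₂`. -/
theorem finrank_le_degree (h : IsRRField k E) (hx : Transcendental k x)
    (hb : ∀ i, IntAway (K := k) x (b i))
    (hint : ∀ f : E, IntAway (K := k) x f → ∃ a : Fin n → k[X], f = ∑ i, toAdj x (a i) • b i)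
    (Z₁ Z₂ : Divisor k E) (hZ₁ : ∀ Q : Place k E, 1 < Q.adicValuation x → Z₁ Q = 0)
    (hZ₂ : 0 ≤ Z₂)
    (hZ : ∀ Q : Place k E, Q.adicValuation x < 1 →
      exp (-(Z₁ Q + Z₂ Q)) ≤ Q.adicValuation x)
    (W : Submodule k (Fin n → k))
    (hW : ∀ w ∈ W, ∀ Q : Place k E, Q.adicValuation x ≤ 1 →
      Q.adicValuation (iota b w) ≤ exp (-(Z₁ Q))) :
    (Module.finrank k W : ℤ) ≤ Divisor.degree Z₂ := by
  classical
  have hx0 : x ≠ 0 := fun h0 => hx (h0 ▸ isAlgebraic_zero)
  set D₀ : Divisor k E := ∑ i, poleDiv h (b i) with hD₀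
  have hD₀b : ∀ i, b i ∈ riemannRochSpace D₀ := fun i =>
    riemannRochSpace_mono
      (Finset.single_le_sum (f := fun j => poleDiv h (b j)) (fun j _ => poleDiv_nonneg h (b j))
        (Finset.mem_univ i)) (mem_riemannRochSpace_poleDiv h (b i))
  have hD₀0 : ∀ Q : Place k E, Q.adicValuation x ≤ 1 → D₀ Q = 0 := by
    intro Q hQ
    rw [hD₀, Finsupp.finset_sum_apply]
    refine Finset.sum_eq_zero fun i _ => ?_
    rw [poleDiv_apply, max_eq_right]
    have := (adicValuation_le_one_iff' Q).mp (hb i Q hQ)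
    omega
  have hι₀ : ∀ w, iota b w ∈ riemannRochSpace D₀ := by
    intro w
    rw [iota_apply]
    refine Submodule.sum_mem _ fun i _ => ?_
    rw [← Algebra.smul_def]
    exact Submodule.smul_mem _ _ (hD₀b i)
  -- the functions `ι w`, `w ∈ W`, lie in `L(D₀ - Z₁)`
  have h1 : ∀ w ∈ W, iota b w ∈ riemannRochSpace (D₀ - Z₁) := by
    intro w hw Q
    show Q.adicValuation (iota b w) ≤ exp ((D₀ - Z₁) Q)
    rw [Finsupp.sub_apply]
    by_cases hQ : Q.adicValuation x ≤ 1
    · rw [hD₀0 Q hQ, zero_sub]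
      exact hW w hw Q hQ
    · rw [hZ₁ Q (not_le.mp hQ), sub_zero]
      exact hι₀ w Q
  -- none of them lies in `L(D₀ - Z₁ - Z₂)`
  have h2 : ∀ w, iota b w ∈ riemannRochSpace (D₀ - Z₁ - Z₂) → w = 0 := by
    intro w hw
    apply eq_zero_of_iota_mem_xR b hx hint
    apply mem_xR_of_adicValuation_le hx0 (intAway_iota b hb w)
    intro Q hQ
    have h3 : Q.adicValuation (iota b w) ≤ exp ((D₀ - Z₁ - Z₂) Q) := hw Q
    rw [Finsupp.sub_apply, Finsupp.sub_apply, hD₀0 Q hQ.le, zero_sub] at h3
    refine h3.trans ?_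
    have h4 := hZ Q hQ
    rwa [neg_add'] at h4
  have hinj := iota_injective b hx hint
  set U : Submodule k E := W.map (iota b) with hU
  have hUle : U ≤ riemannRochSpace (D₀ - Z₁) := by
    rintro _ ⟨w, hw, rfl⟩
    exact h1 w hw
  have hUinf : U ⊓ riemannRochSpace (D₀ - Z₁ - Z₂) = ⊥ := by
    rw [eq_bot_iff]
    rintro f ⟨⟨w, -, rfl⟩, hf⟩
    rw [h2 w hf, map_zero]
    exact Submodule.zero_mem _
  haveI hfinD := finite_riemannRochSpace h (D₀ - Z₁)
  haveI hfinDZ := finite_riemannRochSpace h (D₀ - Z₁ - Z₂)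
  have hle : D₀ - Z₁ - Z₂ ≤ D₀ - Z₁ := sub_le_self _ hZ₂
  have hsub : riemannRochSpace (D₀ - Z₁ - Z₂) ≤ riemannRochSpace (D₀ - Z₁) :=
    riemannRochSpace_mono hle
  haveI hfinU : Module.Finite k U := Submodule.finiteDimensional_of_le hUle
  have hUW : Module.finrank k U = Module.finrank k W :=
    (Submodule.equivMapOfInjective (iota b) hinj W).finrank_eq.symm
  have hsum : Module.finrank k U + Module.finrank k (riemannRochSpace (D₀ - Z₁ - Z₂))
      ≤ Module.finrank k (riemannRochSpace (D₀ - Z₁)) := by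
    have h5 := Submodule.finrank_sup_add_finrank_inf_eq U (riemannRochSpace (D₀ - Z₁ - Z₂))
    rw [hUinf, finrank_bot, add_zero] at h5
    rw [← h5]
    exact Submodule.finrank_mono (sup_le hUle hsub)
  have hmono := degree_sub_ell_mono h hle
  rw [map_sub (Divisor.degree (K := k) (F := E)) (D₀ - Z₁) Z₂] at hmono
  unfold ell at hmono
  rw [hUW] at hsum
  have hsum' : (Module.finrank k W : ℤ)
      + (Module.finrank k (riemannRochSpace (D₀ - Z₁ - Z₂)) : ℤ)
      ≤ (Module.finrank k (riemannRochSpace (D₀ - Z₁)) : ℤ) := by exact_mod_cast hsum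
  linarith

end Core

end RootCount

end Fermat.Agent.BadRedG
end
end MergeWrap_Lib_BadRed_Graph_RootCountCore

section MergeWrap_Lib_BadRed_Graph_RootCount -- from Lib/BadRed/Graph/RootCount.lean

set_option autoImplicit false
set_option linter.unusedSectionVars false
set_option linter.style.haveILetI false

noncomputable section

open AlgebraicCurve Polynomial IntermediateField

namespace Fermat.Agent.BadRedG

open Fermat.Agent.RR Fermat.Agent.RRHur Fermat.Agent.BadRed Fermat.Agent.BadRed.SeedNode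

namespace RootCount

variable {k E : Type*} [Field k] [Field E] [Algebra k E]

/-! ### the divisors of the zeros of `x` with a condition -/

open Classical in
/-- the zeros of `x` which satisfy `P`, with the multiplicity `ord_Q x` -/
def zDiv (h : IsRRField k E) (x : E) (P : Place k E → Prop) : Divisor k E :=
  Finsupp.onFinset (divOf h x).support (fun Q => if 0 < Q.ord x ∧ P Q then Q.ord x else 0)
    (by
      intro Q hQ
      rw [Finsupp.mem_support_iff, divOf_apply]
      intro h0
      apply hQ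
      rw [if_neg]
      rintro ⟨h1, -⟩
      omega)

open Classical in
theorem zDiv_apply (h : IsRRField k E) (x : E) (P : Place k E → Prop) (Q : Place k E) :
    zDiv h x P Q = if 0 < Q.ord x ∧ P Q then Q.ord x else 0 := rfl

theorem zDiv_apply_of (h : IsRRField k E) (x : E) (P : Place k E → Prop) (Q : Place k E)
    (h1 : 0 < Q.ord x) (h2 : P Q) : zDiv h x P Q = Q.ord x := by
  rw [zDiv_apply, if_pos ⟨h1, h2⟩]

theorem zDiv_apply_of_not (h : IsRRField k E) (x : E) (P : Place k E → Prop) (Q : Place k E)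
    (h2 : ¬ P Q) : zDiv h x P Q = 0 := by
  rw [zDiv_apply, if_neg (fun h3 => h2 h3.2)]

theorem zDiv_apply_of_le (h : IsRRField k E) (x : E) (P : Place k E → Prop) (Q : Place k E)
    (h1 : Q.ord x ≤ 0) : zDiv h x P Q = 0 := by
  rw [zDiv_apply, if_neg (fun h3 => absurd h3.1 (not_lt.mpr h1))]

theorem zDiv_cases (h : IsRRField k E) (x : E) (P : Place k E → Prop) (Q : Place k E) :
    (0 < Q.ord x ∧ P Q ∧ zDiv h x P Q = Q.ord x) ∨ (¬ (0 < Q.ord x ∧ P Q) ∧ zDiv h x P Q = 0) := by
  by_cases h1 : 0 < Q.ord x ∧ P Q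
  · exact Or.inl ⟨h1.1, h1.2, zDiv_apply_of h x P Q h1.1 h1.2⟩
  · refine Or.inr ⟨h1, ?_⟩
    rw [zDiv_apply, if_neg h1]

theorem zDiv_nonneg (h : IsRRField k E) (x : E) (P : Place k E → Prop) : 0 ≤ zDiv h x P := by
  rw [Finsupp.le_def]
  intro Q
  rcases zDiv_cases h x P Q with ⟨h1, -, h3⟩ | ⟨-, h3⟩
  · rw [h3]
    exact h1.le
  · rw [h3]
    rfl

theorem zDiv_add (h : IsRRField k E) (x : E) (P : Place k E → Prop) :
    zDiv h x P + zDiv h x (fun Q => ¬ P Q) = poleDiv h x⁻¹ := by
  ext Q
  rw [Finsupp.add_apply, poleDiv_apply, Q.ord_inv, neg_neg]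
  by_cases h1 : 0 < Q.ord x
  · rw [max_eq_left h1.le]
    by_cases h2 : P Q
    · rw [zDiv_apply_of h x P Q h1 h2, zDiv_apply_of_not h x _ Q (not_not.mpr h2), add_zero]
    · rw [zDiv_apply_of_not h x P Q h2, zDiv_apply_of h x _ Q h1 h2, zero_add]
  · rw [max_eq_right (not_lt.mp h1), zDiv_apply_of_le h x _ Q (not_lt.mp h1),
      zDiv_apply_of_le h x _ Q (not_lt.mp h1), add_zero]

theorem degree_poleDiv_inv' (h : IsRRField k E) (u : E) :
    Divisor.degree (poleDiv h u⁻¹) = Divisor.degree (poleDiv h u) := by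
  have h1 : poleDiv h u⁻¹ = poleDiv h u + divOf h u := by
    ext v
    rw [Finsupp.add_apply, poleDiv_apply, poleDiv_apply, divOf_apply, v.ord_inv, neg_neg]
    rcases max_cases (v.ord u) 0 with ⟨h1, _⟩ | ⟨h1, _⟩ <;>
      rcases max_cases (-(v.ord u)) 0 with ⟨h2, _⟩ | ⟨h2, _⟩ <;> omega
  rw [h1, map_add, degree_divOf, add_zero]

theorem degree_zDiv_add (h : IsRRField k E) {x : E} (hx : Transcendental k x)
    [FiniteDimensional k⟮x⟯ E] (P : Place k E → Prop) :
    Divisor.degree (zDiv h x P) + Divisor.degree (zDiv h x (fun Q => ¬ P Q))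
      = (Module.finrank k⟮x⟯ E : ℤ) := by
  rw [← map_add, zDiv_add, degree_poleDiv_inv', degree_poleDiv_eq_finrank h hx]

theorem zDiv_le_finrank (h : IsRRField k E) {x : E} (hx : Transcendental k x)
    [FiniteDimensional k⟮x⟯ E] (P : Place k E → Prop) (Q : Place k E) :
    zDiv h x P Q ≤ (Module.finrank k⟮x⟯ E : ℤ) := by
  have h1 := sn_coeff_le_degree h (poleDiv_nonneg h x⁻¹) Q
  rw [degree_poleDiv_inv', degree_poleDiv_eq_finrank h hx, ← zDiv_add h x P,
    Finsupp.add_apply] at h1
  have h2 := (Finsupp.le_def.mp (zDiv_nonneg h x (fun Q => ¬ P Q))) Q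
  rw [Finsupp.zero_apply] at h2
  omega

theorem degree_zDiv_valAt (h : IsRRField k E) (x g : E) (a : k) :
    Divisor.degree (zDiv h x (fun Q => ValAt Q g a)) = mnCount h x g a := by
  classical
  rw [degree_eq_sum h]
  unfold mnCount
  have h1 : (zDiv h x (fun Q => ValAt Q g a)).support ⊆ (divOf h x).support :=
    Finsupp.support_onFinset_subset
  rw [Finset.sum_subset h1 (fun Q _ hQ => Finsupp.notMem_support_iff.mp hQ)]
  refine Finset.sum_congr rfl fun Q _ => ?_
  rw [zDiv_apply]

/-! ### valuations at the zeros of `x` -/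

open WithZero in
theorem adicValuation_eq_exp_of_ne {x : E} (hx0 : x ≠ 0) (Q : Place k E) :
    Q.adicValuation x = exp (-(Q.ord x)) := Q.adicValuation_eq_exp_neg_ord hx0

open WithZero in
theorem one_lt_adicValuation_iff {x : E} (Q : Place k E) :
    1 < Q.adicValuation x ↔ Q.ord x < 0 := by
  rw [← not_le, Q.not_adicValuation_le_one_iff]

/-! ### the two spaces -/

section Main

variable {x : E} [FiniteDimensional k⟮x⟯ E] {n : ℕ} (b : Module.Basis (Fin n) k⟮x⟯ E)

open WithZero in
/-- the generalised eigenspace of `a`: the functions vanish at the zeros of `x` with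
`g ≠ a`. -/
theorem adicValuation_iota_le_of_mem_maxGen (h : IsRRField k E) (hx0 : x ≠ 0)
    (hb : ∀ i, IntAway (K := k) x (b i)) (g : E) (hg : IntAway (K := k) x g)
    (m : Matrix (Fin n) (Fin n) k[X]) (hm : ∀ j, g * b j = ∑ i, toAdj x (m i j) • b i)
    (a : k) (w : Fin n → k)
    (hw : w ∈ Module.End.maxGenEigenspace
      (Matrix.toLin' (m.map (Polynomial.evalRingHom 0))) a)
    (Q : Place k E) (hQ : Q.adicValuation x ≤ 1) :
    Q.adicValuation (iota b w) ≤ exp (-(zDiv h x (fun Q => ¬ ValAt Q g a) Q)) := by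
  rcases zDiv_cases h x (fun Q => ¬ ValAt Q g a) Q with ⟨h1, h2, h3⟩ | ⟨-, h3⟩
  · rw [h3, ← adicValuation_eq_exp_of_ne hx0]
    obtain ⟨N, hN⟩ := (Module.End.mem_maxGenEigenspace _ _ _).mp hw
    have h4 := pow_mul_iota_sub_mem b hb g hg m hm a N w
    rw [hN, map_zero, sub_zero] at h4
    have h5 := adicValuation_le_of_mem_xR h4 Q hQ
    rw [map_mul, map_pow] at h5
    have h6 : Q.adicValuation (g - algebraMap k E a) = 1 := by
      have h7 : Q.adicValuation (g - algebraMap k E a) ≤ 1 :=
        (hg.sub (fun v _ => v.adicValuation_algebraMap_le_one a)) Q hQ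
      have h8 : ¬ Q.adicValuation (algebraMap k E a - g) < 1 :=
        fun h9 => h2 ((valAt_iff Q g a).mpr h9)
      rw [Valuation.map_sub_swap] at h8
      exact le_antisymm h7 (not_lt.mp h8)
    rwa [h6, one_pow, one_mul] at h5
  · rw [h3, neg_zero, exp_zero]
    exact intAway_iota b hb w Q hQ

open WithZero in
/-- the image of `(m(0) - a) ^ N`, `N ≥ ord_Q x`: the functions vanish at the zeros of `x` with
`g = a`. -/
theorem adicValuation_iota_le_of_mem_range (h : IsRRField k E) (hx0 : x ≠ 0)
    (hb : ∀ i, IntAway (K := k) x (b i)) (g : E) (hg : IntAway (K := k) x g)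
    (m : Matrix (Fin n) (Fin n) k[X]) (hm : ∀ j, g * b j = ∑ i, toAdj x (m i j) • b i)
    (a : k) (N : ℕ) (hN : ∀ Q : Place k E, zDiv h x (fun Q => ValAt Q g a) Q ≤ (N : ℤ))
    (w : Fin n → k)
    (hw : w ∈ LinearMap.range
      ((Matrix.toLin' (m.map (Polynomial.evalRingHom 0)) - a • 1) ^ N))
    (Q : Place k E) (hQ : Q.adicValuation x ≤ 1) :
    Q.adicValuation (iota b w) ≤ exp (-(zDiv h x (fun Q => ValAt Q g a) Q)) := by
  rcases zDiv_cases h x (fun Q => ValAt Q g a) Q with ⟨h1, h2, h3⟩ | ⟨-, h3⟩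
  · obtain ⟨c, rfl⟩ := hw
    have h4 := pow_mul_iota_sub_mem b hb g hg m hm a N c
    have h5 : iota b (((Matrix.toLin' (m.map (Polynomial.evalRingHom 0)) - a • 1) ^ N) c)
        = (g - algebraMap k E a) ^ N * iota b c
          - ((g - algebraMap k E a) ^ N * iota b c
            - iota b (((Matrix.toLin' (m.map (Polynomial.evalRingHom 0)) - a • 1) ^ N) c)) := by
      ring
    rw [h5]
    refine (Valuation.map_sub _ _ _).trans (max_le ?_ ?_)
    · rw [map_mul, map_pow]
      have h6 : Q.adicValuation (g - algebraMap k E a) ≤ exp (-1) := by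
        rw [Q.adicValuation_le_exp_iff, neg_neg]
        rcases h2 with h2 | h2
        · exact Or.inl (sub_eq_zero.mpr h2)
        · exact Or.inr h2
      have h7 : Q.adicValuation (iota b c) ≤ 1 := intAway_iota b hb c Q hQ
      have h8 : Q.adicValuation (g - algebraMap k E a) ^ N * Q.adicValuation (iota b c)
          ≤ exp (-1) ^ N * 1 := mul_le_mul' (pow_le_pow_left' h6 N) h7
      refine h8.trans ?_
      rw [mul_one, ← exp_nsmul, exp_le_exp]
      have h9 := hN Q
      rw [nsmul_eq_mul, mul_neg, mul_one]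
      omega
    · rw [h3, ← adicValuation_eq_exp_of_ne hx0]
      exact adicValuation_le_of_mem_xR h4 Q hQ
  · rw [h3, neg_zero, exp_zero]
    exact intAway_iota b hb w Q hQ

open WithZero in
/-- **the refined root formula**, with a basis -/
theorem rootMultiplicity_eq_mnCount (h : IsRRField k E) (hx : Transcendental k x)
    (hn : n = Module.finrank k⟮x⟯ E)
    (hb : ∀ i, IntAway (K := k) x (b i))
    (hint : ∀ f : E, IntAway (K := k) x f → ∃ a : Fin n → k[X], f = ∑ i, toAdj x (a i) • b i)
    (g : E) (hg : IntAway (K := k) x g)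
    (m : Matrix (Fin n) (Fin n) k[X]) (hm : ∀ j, g * b j = ∑ i, toAdj x (m i j) • b i)
    (a : k) :
    (((m.map (Polynomial.evalRingHom 0)).charpoly.rootMultiplicity a : ℕ) : ℤ)
      = mnCount h x g a := by
  have hx0 : x ≠ 0 := fun h0 => hx (h0 ▸ isAlgebraic_zero)
  rw [← Matrix.charpoly_toLin', ← LinearMap.finrank_maxGenEigenspace_eq,
    ← degree_zDiv_valAt]
  have hdeg : Divisor.degree (zDiv h x (fun Q => ValAt Q g a))
      + Divisor.degree (zDiv h x (fun Q => ¬ ValAt Q g a)) = (n : ℤ) := by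
    rw [hn]
    exact degree_zDiv_add h hx _
  have hsum : ∀ Q : Place k E, Q.adicValuation x < 1 →
      zDiv h x (fun Q => ValAt Q g a) Q + zDiv h x (fun Q => ¬ ValAt Q g a) Q = Q.ord x := by
    intro Q hQ
    have h1 : 0 < Q.ord x := ((adicValuation_lt_one_iff Q x).mp hQ).resolve_left hx0
    have h2 := congrArg (fun D : Divisor k E => D Q) (zDiv_add h x (fun Q => ValAt Q g a))
    simp only [Finsupp.add_apply] at h2
    rw [h2, poleDiv_apply, Q.ord_inv, neg_neg, max_eq_left h1.le]
  apply le_antisymm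
  · refine finrank_le_degree b h hx hb hint (zDiv h x (fun Q => ¬ ValAt Q g a))
      (zDiv h x (fun Q => ValAt Q g a)) ?_ (zDiv_nonneg _ _ _) ?_ _ ?_
    · intro Q hQ
      exact zDiv_apply_of_le h x _ Q ((one_lt_adicValuation_iff Q).mp hQ).le
    · intro Q hQ
      rw [add_comm, hsum Q hQ, adicValuation_eq_exp_of_ne hx0]
    · intro w hw Q hQ
      exact adicValuation_iota_le_of_mem_maxGen b h hx0 hb g hg m hm a w hw Q hQ
  · have h1 : (Module.finrank k (LinearMap.range
        ((Matrix.toLin' (m.map (Polynomial.evalRingHom 0)) - a • 1) ^ n)) : ℤ)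
        ≤ Divisor.degree (zDiv h x (fun Q => ¬ ValAt Q g a)) := by
      refine finrank_le_degree b h hx hb hint (zDiv h x (fun Q => ValAt Q g a))
        (zDiv h x (fun Q => ¬ ValAt Q g a)) ?_ (zDiv_nonneg _ _ _) ?_ _ ?_
      · intro Q hQ
        exact zDiv_apply_of_le h x _ Q ((one_lt_adicValuation_iff Q).mp hQ).le
      · intro Q hQ
        rw [hsum Q hQ, adicValuation_eq_exp_of_ne hx0]
      · intro w hw Q hQ
        refine adicValuation_iota_le_of_mem_range b h hx0 hb g hg m hm a n ?_ w hw Q hQ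
        intro Q'
        rw [hn]
        exact zDiv_le_finrank h hx _ Q'
    have h2 := LinearMap.finrank_range_add_finrank_ker
      ((Matrix.toLin' (m.map (Polynomial.evalRingHom 0)) - a • 1) ^ n)
    rw [Module.finrank_fin_fun] at h2
    have h3 : Module.End.maxGenEigenspace (Matrix.toLin' (m.map (Polynomial.evalRingHom 0))) a
        = LinearMap.ker ((Matrix.toLin' (m.map (Polynomial.evalRingHom 0)) - a • 1) ^ n) := by
      rw [Module.End.maxGenEigenspace_eq_genEigenspace_finrank, Module.finrank_fin_fun,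
        Module.End.genEigenspace_nat]
    rw [h3]
    have h2' : (Module.finrank k (LinearMap.range
        ((Matrix.toLin' (m.map (Polynomial.evalRingHom 0)) - a • 1) ^ n)) : ℤ)
        + (Module.finrank k (LinearMap.ker
          ((Matrix.toLin' (m.map (Polynomial.evalRingHom 0)) - a • 1) ^ n)) : ℤ) = n := by
      exact_mod_cast h2
    linarith

end Main

end RootCount

/-- **The refined root formula**: if `Φ(x, X)` is the characteristic polynomial of `g` on
`E / k(x)`, then the multiplicity of `a` as a root of `Φ(0, X)` is the number of zeros of `x`,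
counted with multiplicity, at which `g` takes the value `a`. -/
theorem rootCount {k E : Type*} [Field k] [Field E] [Algebra k E] : RootCountStatement k E := by
  intro h x hx _ g Φ hΦ a
  have hg : IntAway (K := k) x g := intAway_iff.mpr (regular_of_charpoly_poly g Φ hΦ)
  obtain ⟨b, hb, hint⟩ := exists_int_basis h hx
  obtain ⟨m, hm, hmat⟩ := exists_matrix b hint hb g hg
  have hΦm : Φ = m.charpoly := by
    apply Polynomial.map_injective (toAdj x) (toAdj_injective hx)
    rw [hΦ, charpoly_mulLeft_eq b g, hmat, Matrix.charpoly_map]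
  rw [hΦm, ← Matrix.charpoly_map]
  exact RootCount.rootMultiplicity_eq_mnCount b h hx rfl hb hint g hg m hm a

end Fermat.Agent.BadRedG
end
end MergeWrap_Lib_BadRed_Graph_RootCount
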