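import Mathlib
import Fermat.Agent.MUL.Lib.BadRed.Graph.NodeMultiWire
import Fermat.Agent.MUL.Lib.BadRed.Graph.RootCount
import Fermat.Agent.MUL.Lib.BadRed.Graph.NodeMatch
import Fermat.Agent.MUL.R38.Ret.Junction

section MergeWrap_Lib_BadRed_Graph_NodeMultiFinal -- from Lib/BadRed/Graph/NodeMultiFinal.lean

set_option autoImplicit false

/-!
# Cluster G (S36): the multi-extension node theorem, unconditional

`multiNode : MultiNodeStatement S V₁ V₂ u ϖ` (helper99's statement in `MultiNodeDefs.lean`):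
for two consecutive Gauss radii of `K(u)` with the families `V₁`, `V₂` of extensions to `F`, and
`f` integral for all of them with poles only at the zeros and poles of `u`, the weighted numbers
of node values of `f` on the two sides agree.  It is `multiNode_of_rootCount` (the charpoly
reduction, `NodeMultiWire.lean`) applied to `rootCount` (helper4, `RootCount.lean`).
-/

noncomputable section

open AlgebraicCurve

namespace Fermat.Agent.BadRedG

open Fermat.Agent.RR Fermat.Agent.Deuring Fermat.Agent.BadRed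

variable {K F k : Type*} [Field K] [Field F] [Algebra K F] [Field k]
  {κ : Type*} {Fk : κ → Type*} [∀ c, Field (Fk c)] [∀ c, Algebra k (Fk c)]

/-- **The multi-extension node theorem** (multiset form), unconditional. -/
theorem multiNode [Infinite k] (S : ∀ c : κ, ValSetup K F k (Fk c))
    (V₁ V₂ : Finset κ) (u : F) (ϖ : K) : MultiNodeStatement S V₁ V₂ u ϖ :=
  multiNode_of_rootCount S V₁ V₂ u ϖ (fun _ => rootCount)

end Fermat.Agent.BadRedG
end
end MergeWrap_Lib_BadRed_Graph_NodeMultiFinal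

section MergeWrap_Lib_BadRed_Graph_NodeCount -- from Lib/BadRed/Graph/NodeCount.lean

set_option autoImplicit false
set_option linter.unusedSectionVars false

noncomputable section

open AlgebraicCurve

namespace Fermat.Agent.BadRedG

open Fermat.Agent.RR Fermat.Agent.Deuring Fermat.Agent.BadRed

variable {K F k : Type*} [Field K] [Field F] [Algebra K F] [Field k]
  {κ : Type*} {Fk : κ → Type*} [∀ c, Field (Fk c)] [∀ c, Algebra k (Fk c)]

/-- the zeros of `x`. -/
def ncZeros {E : Type*} [Field E] [Algebra k E] (h : IsRRField k E) (x : E) :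
    Finset (Place k E) :=
  (divOf h x).support.filter fun Q => 0 < Q.ord x

theorem mem_ncZeros {E : Type*} [Field E] [Algebra k E] (h : IsRRField k E) (x : E)
    (Q : Place k E) : Q ∈ ncZeros h x ↔ 0 < Q.ord x := by
  unfold ncZeros
  rw [Finset.mem_filter, Finsupp.mem_support_iff, divOf_apply]
  constructor
  · exact fun h1 => h1.2
  · exact fun h1 => ⟨h1.ne', h1⟩

open Classical in
/-- `mnCount` as a sum over the zeros. -/
theorem mnCount_eq_sum_ncZeros {E : Type*} [Field E] [Algebra k E] (h : IsRRField k E)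
    (x g : E) (a : k) :
    mnCount h x g a = ∑ Q ∈ ncZeros h x, if ValAt Q g a then Q.ord x else 0 := by
  unfold mnCount ncZeros
  rw [Finset.sum_filter]
  refine Finset.sum_congr rfl fun Q _ => ?_
  by_cases h1 : 0 < Q.ord x
  · rw [if_pos h1]
    by_cases h2 : ValAt Q g a
    · rw [if_pos ⟨h1, h2⟩, if_pos h2]
    · rw [if_neg (fun h3 => h2 h3.2), if_neg h2]
  · rw [if_neg h1, if_neg (fun h3 => h1 h3.1)]

/-- the points `(c, Q)`: `c ∈ V`, `Q` a zero of `red_c x`. -/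
def ncPts (S : ∀ c : κ, ValSetup K F k (Fk c)) (V : Finset κ) (x : F) :
    Finset (Σ c, Place k (Fk c)) :=
  V.sigma fun c => ncZeros (S c).hFk ((S c).red x)

theorem mem_ncPts (S : ∀ c : κ, ValSetup K F k (Fk c)) (V : Finset κ) (x : F)
    (p : Σ c, Place k (Fk c)) :
    p ∈ ncPts S V x ↔ p.1 ∈ V ∧ 0 < p.2.ord ((S p.1).red x) := by
  unfold ncPts
  rw [Finset.mem_sigma, mem_ncZeros]

/-- the weight `ord_Q (red_c x)`. -/
def ncW (S : ∀ c : κ, ValSetup K F k (Fk c)) (x : F) (p : Σ c, Place k (Fk c)) : ℤ :=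
  p.2.ord ((S p.1).red x)

theorem ncW_pos (S : ∀ c : κ, ValSetup K F k (Fk c)) (V : Finset κ) (x : F)
    {p : Σ c, Place k (Fk c)} (hp : p ∈ ncPts S V x) : 0 < ncW S x p :=
  ((mem_ncPts S V x p).mp hp).2

open Classical in
/-- the sum of the `mnCount` as a sum over the points. -/
theorem sum_mnCount_eq (S : ∀ c : κ, ValSetup K F k (Fk c)) (V : Finset κ) (x f : F) (a : k) :
    ∑ c ∈ V, mnCount (S c).hFk ((S c).red x) ((S c).red f) a =
      ∑ p ∈ ncPts S V x, if ValAt p.2 ((S p.1).red f) a then ncW S x p else 0 := by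
  unfold ncPts
  rw [Finset.sum_sigma]
  refine Finset.sum_congr rfl fun c _ => ?_
  rw [mnCount_eq_sum_ncZeros]
  rfl

/-- the admissible functions: integral for all `c ∈ V₁ ∪ V₂`, poles among the zeros and poles of
`u`. -/
def ncAdm (S : ∀ c : κ, ValSetup K F k (Fk c)) (V₁ V₂ : Finset κ) (u : F) : Set F :=
  {f | (∀ c ∈ V₁, f ∈ (S c).Ov) ∧ (∀ c ∈ V₂, f ∈ (S c).Ov) ∧
    ∀ P : Place K F, P.ord f < 0 → P.ord u ≠ 0}

theorem mem_ncAdm (S : ∀ c : κ, ValSetup K F k (Fk c)) (V₁ V₂ : Finset κ) (u f : F) :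
    f ∈ ncAdm S V₁ V₂ u ↔ (∀ c ∈ V₁, f ∈ (S c).Ov) ∧ (∀ c ∈ V₂, f ∈ (S c).Ov) ∧
      ∀ P : Place K F, P.ord f < 0 → P.ord u ≠ 0 := Iff.rfl

/-- the poles of a sum. -/
theorem nc_ord_add_neg (P : Place K F) {f g : F} (h : P.ord (f + g) < 0) :
    P.ord f < 0 ∨ P.ord g < 0 := by
  by_contra hcon
  push Not at hcon
  have h1 : P.adicValuation f ≤ 1 := by
    by_contra h2
    exact absurd (P.not_adicValuation_le_one_iff.mp h2) (not_lt.mpr hcon.1)
  have h2 : P.adicValuation g ≤ 1 := by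
    by_contra h3
    exact absurd (P.not_adicValuation_le_one_iff.mp h3) (not_lt.mpr hcon.2)
  have h3 : P.adicValuation (f + g) ≤ 1 :=
    (Valuation.map_add _ _ _).trans (max_le h1 h2)
  exact (P.not_adicValuation_le_one_iff.mpr h) h3

/-- the poles of a multiple by a constant. -/
theorem nc_ord_smul_neg (P : Place K F) (a : K) {f : F} (h : P.ord (a • f) < 0) :
    P.ord f < 0 := by
  by_contra hcon
  push Not at hcon
  have h1 : P.adicValuation f ≤ 1 := by
    by_contra h2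
    exact absurd (P.not_adicValuation_le_one_iff.mp h2) (not_lt.mpr hcon)
  have h3 : P.adicValuation (a • f) ≤ 1 := by
    rw [Algebra.smul_def, map_mul]
    exact mul_le_one' (P.adicValuation_algebraMap_le_one a) h1
  exact (P.not_adicValuation_le_one_iff.mpr h) h3

section Main

variable [Infinite k] (S : ∀ c : κ, ValSetup K F k (Fk c)) (V₁ V₂ : Finset κ) (u : F) (ϖ : K)

open Classical in
/-- the reductions of the admissible functions are regular at the points. -/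
theorem nc_reg (D : MNData S V₁ V₂ u ϖ) {f : F} (hf : f ∈ ncAdm S V₁ V₂ u)
    {p : Σ c, Place k (Fk c)}
    (hp : p ∈ ncPts S V₁ u ∪ ncPts S V₂ (algebraMap K F ϖ / u)) :
    ∃ a : k, ValAt p.2 ((S p.1).red f) a := by
  obtain ⟨h1, h2, -⟩ := multiNode S V₁ V₂ u ϖ D f hf.1 hf.2.1 hf.2.2
  rcases Finset.mem_union.mp hp with hp | hp
  · obtain ⟨hc, hQ⟩ := (mem_ncPts S V₁ u p).mp hp
    exact exists_const_sub (S p.1).hFk p.2 (h1 p.1 hc p.2 hQ.le)
  · obtain ⟨hc, hQ⟩ := (mem_ncPts S V₂ _ p).mp hp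
    exact exists_const_sub (S p.1).hFk p.2 (h2 p.1 hc p.2 hQ.le)

open Classical in
/-- **the admissible functions** satisfy the hypotheses of the matching. -/
theorem nc_adm (D : MNData S V₁ V₂ u ϖ) :
    NmtAdm S (ncAdm S V₁ V₂ u) (ncPts S V₁ u ∪ ncPts S V₂ (algebraMap K F ϖ / u)) where
  A_eq := D.A_eq
  res_eq := D.res_eq
  zero_mem := ⟨fun c _ => (S c).Ov.zero_mem, fun c _ => (S c).Ov.zero_mem, fun P hP => by
    rw [Place.ord_zero] at hP
    exact absurd hP (lt_irrefl _)⟩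
  add_mem := fun f g hf hg =>
    ⟨fun c hc => add_mem (hf.1 c hc) (hg.1 c hc),
      fun c hc => add_mem (hf.2.1 c hc) (hg.2.1 c hc),
      fun P hP => (nc_ord_add_neg P hP).elim (hf.2.2 P) (hg.2.2 P)⟩
  smul_mem := fun c₀ a ha f hf => by
    have hmem : ∀ c : κ, f ∈ (S c).Ov → a • f ∈ (S c).Ov := by
      intro c hfc
      rw [Algebra.smul_def]
      exact mul_mem (((S c).mem_Ov_iff a).mpr (D.A_eq c₀ c ▸ ha)) hfc
    exact ⟨fun c hc => hmem c (hf.1 c hc), fun c hc => hmem c (hf.2.1 c hc),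
      fun P hP => hf.2.2 P (nc_ord_smul_neg P a hP)⟩
  int := fun f hf p hp => by
    rcases Finset.mem_union.mp hp with hp | hp
    · exact hf.1 p.1 ((mem_ncPts S V₁ u p).mp hp).1
    · exact hf.2.1 p.1 ((mem_ncPts S V₂ _ p).mp hp).1
  reg := fun f hf p hp => nc_reg S V₁ V₂ u ϖ D hf hp

open Classical in
/-- **the count hypothesis** of the matching. -/
theorem nc_count (D : MNData S V₁ V₂ u ϖ) (f : F) (hf : f ∈ ncAdm S V₁ V₂ u) (a : k) :
    (∑ p ∈ ncPts S V₁ u, if ValAt p.2 ((S p.1).red f) a then ncW S u p else 0) =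
      ∑ p ∈ ncPts S V₂ (algebraMap K F ϖ / u),
        if ValAt p.2 ((S p.1).red f) a then ncW S (algebraMap K F ϖ / u) p else 0 := by
  obtain ⟨-, -, h3⟩ := multiNode S V₁ V₂ u ϖ D f hf.1 hf.2.1 hf.2.2
  rw [← sum_mnCount_eq, ← sum_mnCount_eq]
  exact h3 a

open Classical in
/-- **equality of the class sums.** -/
theorem nc_class_sum (D : MNData S V₁ V₂ u ϖ) {p₀ : Σ c, Place k (Fk c)}
    (hp₀ : p₀ ∈ ncPts S V₁ u ∪ ncPts S V₂ (algebraMap K F ϖ / u)) :
    (∑ p ∈ ncPts S V₁ u, if NmtEq S (ncAdm S V₁ V₂ u) p p₀ then ncW S u p else 0) =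
      ∑ p ∈ ncPts S V₂ (algebraMap K F ϖ / u),
        if NmtEq S (ncAdm S V₁ V₂ u) p p₀ then ncW S (algebraMap K F ϖ / u) p else 0 := by
  obtain ⟨c₀, -⟩ := D.ne₁
  exact nmt_class_sum _ _ (nc_adm S V₁ V₂ u ϖ D) c₀ _ _ (nc_count S V₁ V₂ u ϖ D) hp₀

open Classical in
/-- every zero of `red_c u`, `c ∈ V₁`, has a partner among the zeros of the `red_c' (ϖ / u)`,
`c' ∈ V₂`. -/
theorem nc_exists_right (D : MNData S V₁ V₂ u ϖ) {p₀ : Σ c, Place k (Fk c)}
    (hp₀ : p₀ ∈ ncPts S V₁ u) :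
    ∃ p ∈ ncPts S V₂ (algebraMap K F ϖ / u), NmtEq S (ncAdm S V₁ V₂ u) p₀ p := by
  obtain ⟨c₀, -⟩ := D.ne₁
  exact nmt_exists_of_pos _ _ (nc_adm S V₁ V₂ u ϖ D) c₀ _ _ (nc_count S V₁ V₂ u ϖ D)
    (fun p hp => (ncW_pos S V₁ u hp).le) hp₀ (ncW_pos S V₁ u hp₀)

open Classical in
/-- every zero of `red_c (ϖ / u)`, `c ∈ V₂`, has a partner among the zeros of the `red_c' u`,
`c' ∈ V₁`. -/
theorem nc_exists_left (D : MNData S V₁ V₂ u ϖ) {p₀ : Σ c, Place k (Fk c)}
    (hp₀ : p₀ ∈ ncPts S V₂ (algebraMap K F ϖ / u)) :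
    ∃ p ∈ ncPts S V₁ u, NmtEq S (ncAdm S V₁ V₂ u) p₀ p := by
  obtain ⟨c₀, -⟩ := D.ne₁
  have hadm : NmtAdm S (ncAdm S V₁ V₂ u)
      (ncPts S V₂ (algebraMap K F ϖ / u) ∪ ncPts S V₁ u) := by
    rw [Finset.union_comm]
    exact nc_adm S V₁ V₂ u ϖ D
  exact nmt_exists_of_pos _ _ hadm c₀ _ _
    (fun f hf a => (nc_count S V₁ V₂ u ϖ D f hf a).symm)
    (fun p hp => (ncW_pos S V₂ _ hp).le) hp₀ (ncW_pos S V₂ _ hp₀)

end Main

end Fermat.Agent.BadRedG
end
end MergeWrap_Lib_BadRed_Graph_NodeCount
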